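import Fermat.Agent.S29.CycCheb.FibreBelow

/-!
# Weak cyclic Chebotarev, leaf (K2b): the fibre count

`K ⊆ L` number fields, `L/K` Galois with abelian group `G`, `H ≤ G`, `F := L^H`.
For a prime `𝔭` of `K` of prime norm `ℓ ∉ bad` (so `ℓ ∤ disc L`), a prime `𝔔` of `L` over `𝔭`
and a Frobenius `σ` at `𝔔`:

* `ncard_fiber_of_mem`: if `σ ∈ H` there are exactly `[G : H]` primes of `F` of prime norm over `𝔭`;
* `fiber_eq_empty_of_notMem`: if `σ ∉ H` there is none.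

The two generic cores (`M` any intermediate field, Galois over `K`):

* `absNorm_under_eq_of_mem_fixingSubgroup`: a Frobenius at `𝔔` fixing `M` forces
  `N(𝔔 ∩ 𝓞 M) = N(𝔔 ∩ 𝓞 K)`;
* `mem_fixingSubgroup_of_absNorm_eq`: conversely, if `𝔔` is unramified over `K` and
  `N(𝔔 ∩ 𝓞 M) = N(𝔔 ∩ 𝓞 K)`, every Frobenius at `𝔔` fixes `M`.
-/

set_option autoImplicit false
set_option linter.style.haveILetI false
set_option linter.unusedSectionVars false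

open NumberField Ideal IsDedekindDomain
open Fermat.Agent.S29.CycCheb.LogZeta

namespace Fermat.Agent.S29.CycCheb.FibreCount

open Fermat.Agent.S29.CycCheb

/-! ### a finite field in which every element satisfies `x ^ q = x` has at most `q` elements -/

theorem card_le_of_forall_pow_eq {F : Type*} [Field F] [Finite F] {q : ℕ} (hq : 1 < q)
    (h : ∀ x : F, x ^ q = x) : Nat.card F ≤ q := by
  classical
  haveI := Fintype.ofFinite F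
  have hne : (Polynomial.X ^ q - Polynomial.X : Polynomial F) ≠ 0 :=
    FiniteField.X_pow_card_sub_X_ne_zero F hq
  have hsub : (Finset.univ : Finset F) ⊆
      (Polynomial.X ^ q - Polynomial.X : Polynomial F).roots.toFinset := by
    intro x _
    rw [Multiset.mem_toFinset, Polynomial.mem_roots hne]
    simp [h x]
  calc Nat.card F = (Finset.univ : Finset F).card := by
        rw [Nat.card_eq_fintype_card, Finset.card_univ]
    _ ≤ (Polynomial.X ^ q - Polynomial.X : Polynomial F).roots.toFinset.card :=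
        Finset.card_le_card hsub
    _ ≤ Multiset.card (Polynomial.X ^ q - Polynomial.X : Polynomial F).roots :=
        Multiset.toFinset_card_le _
    _ ≤ (Polynomial.X ^ q - Polynomial.X : Polynomial F).natDegree := Polynomial.card_roots' _
    _ = q := FiniteField.X_pow_card_sub_X_natDegree_eq F hq

/-! ### the generic cores -/

section core

variable {E L : Type*} [Field E] [NumberField E] [Field L] [NumberField L] [Algebra E L]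
  [IsGalois E L] (M : IntermediateField E L)

theorem coe_smul_int (σ : L ≃ₐ[E] L) (x : 𝓞 L) : ((σ • x : 𝓞 L) : L) = σ (x : L) := by
  have := algebraMap.smul' σ x L
  exact this

theorem coe_algebraMap_int (y : 𝓞 M) :
    ((algebraMap (𝓞 M) (𝓞 L) y : 𝓞 L) : L) = algebraMap M L (y : M) := by
  rw [RingOfIntegers.coe_eq_algebraMap, RingOfIntegers.coe_eq_algebraMap,
    ← IsScalarTower.algebraMap_apply, ← IsScalarTower.algebraMap_apply]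

theorem under_under_int (𝔔 : Ideal (𝓞 L)) : (𝔔.under (𝓞 M)).under (𝓞 E) = 𝔔.under (𝓞 E) :=
  Ideal.under_under 𝔔

/-- restriction of the Frobenius relation to an intermediate field fixed by the Frobenius. -/
theorem frob_restrict {𝔔 : Ideal (𝓞 L)} {σ : L ≃ₐ[E] L} (hσ : IsArithFrobAt (𝓞 E) σ 𝔔)
    (hfix : σ ∈ M.fixingSubgroup) (y : 𝓞 M) :
    y - y ^ Nat.card (𝓞 E ⧸ 𝔔.under (𝓞 E)) ∈ 𝔔.under (𝓞 M) := by
  have h := hσ (algebraMap (𝓞 M) (𝓞 L) y)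
  have hy : σ • (algebraMap (𝓞 M) (𝓞 L) y) = algebraMap (𝓞 M) (𝓞 L) y := by
    apply RingOfIntegers.ext
    have h1 := (IntermediateField.mem_fixingSubgroup_iff M σ).1 hfix (y : M) (y : M).2
    rw [coe_smul_int]
    exact h1
  rw [Ideal.mem_comap]
  rw [map_sub, map_pow]
  have h2 : (MulSemiringAction.toAlgHom (𝓞 E) (𝓞 L) σ) (algebraMap (𝓞 M) (𝓞 L) y)
      = σ • (algebraMap (𝓞 M) (𝓞 L) y) := rfl
  rw [h2, hy] at h
  exact h

/-- If a Frobenius at `𝔔` fixes `M`, then `𝔔 ∩ 𝓞 M` has the same norm as `𝔔 ∩ 𝓞 E`. -/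
theorem absNorm_under_eq_of_mem_fixingSubgroup {𝔔 : Ideal (𝓞 L)} [𝔔.IsPrime] (h𝔔 : 𝔔 ≠ ⊥)
    {σ : L ≃ₐ[E] L} (hσ : IsArithFrobAt (𝓞 E) σ 𝔔) (hfix : σ ∈ M.fixingSubgroup) :
    absNorm (𝔔.under (𝓞 M)) = absNorm (𝔔.under (𝓞 E)) := by
  set 𝔓 := 𝔔.under (𝓞 M) with h𝔓
  set 𝔭 := 𝔔.under (𝓞 E) with h𝔭
  have h𝔓ne : 𝔓 ≠ ⊥ := mt Ideal.eq_bot_of_comap_eq_bot h𝔔
  have h𝔭ne : 𝔭 ≠ ⊥ := mt Ideal.eq_bot_of_comap_eq_bot h𝔔
  haveI : 𝔓.IsMaximal := Ring.HasFiniteQuotients.maximalOfPrime h𝔓ne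
  haveI : 𝔭.IsMaximal := Ring.HasFiniteQuotients.maximalOfPrime h𝔭ne
  haveI : Finite (𝓞 M ⧸ 𝔓) := Ring.HasFiniteQuotients.finiteQuotient h𝔓ne
  haveI : Finite (𝓞 E ⧸ 𝔭) := Ring.HasFiniteQuotients.finiteQuotient h𝔭ne
  haveI : 𝔓.LiesOver 𝔭 := ⟨(under_under_int M 𝔔).symm⟩
  letI : Field (𝓞 M ⧸ 𝔓) := Ideal.Quotient.field 𝔓
  rw [Ideal.absNorm_apply, Submodule.cardQuot_apply, Ideal.absNorm_apply, Submodule.cardQuot_apply]
  set q := Nat.card (𝓞 E ⧸ 𝔭) with hq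
  have hq1 : 1 < q := Finite.one_lt_card
  apply le_antisymm
  · apply card_le_of_forall_pow_eq hq1
    intro x
    obtain ⟨y, rfl⟩ := Ideal.Quotient.mk_surjective x
    rw [← map_pow, eq_comm, Ideal.Quotient.eq]
    exact frob_restrict M hσ hfix y
  · exact Nat.card_le_card_of_injective _
      (FaithfulSMul.algebraMap_injective (𝓞 E ⧸ 𝔭) (𝓞 M ⧸ 𝔓))

variable [IsGalois E M]

theorem restrict_smul (σ : L ≃ₐ[E] L) (y : 𝓞 M) :
    algebraMap (𝓞 M) (𝓞 L) (σ.restrictNormal M • y) = σ • algebraMap (𝓞 M) (𝓞 L) y := by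
  apply RingOfIntegers.ext
  rw [coe_algebraMap_int, coe_smul_int (σ.restrictNormal M) y, coe_smul_int σ,
    coe_algebraMap_int, AlgEquiv.restrictNormal_commutes]

/-- the restriction of a Frobenius at `𝔔` to a normal intermediate field is a Frobenius at
`𝔔 ∩ 𝓞 M`. -/
theorem isArithFrobAt_restrict {𝔔 : Ideal (𝓞 L)} {σ : L ≃ₐ[E] L}
    (hσ : IsArithFrobAt (𝓞 E) σ 𝔔) :
    IsArithFrobAt (𝓞 E) (σ.restrictNormal M) (𝔔.under (𝓞 M)) := by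
  intro y
  have h := hσ (algebraMap (𝓞 M) (𝓞 L) y)
  have h2 : (MulSemiringAction.toAlgHom (𝓞 E) (𝓞 L) σ) (algebraMap (𝓞 M) (𝓞 L) y)
      = σ • (algebraMap (𝓞 M) (𝓞 L) y) := rfl
  have h3 : (MulSemiringAction.toAlgHom (𝓞 E) (𝓞 M) (σ.restrictNormal M)) y
      = (σ.restrictNormal M) • y := rfl
  rw [h2, ← restrict_smul, ← map_pow, ← map_sub] at h
  rw [h3, under_under_int]
  exact h

/-- If `𝔔` is unramified over `E` and `𝔔 ∩ 𝓞 M` has the same norm as `𝔔 ∩ 𝓞 E`, every Frobenius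
at `𝔔` fixes `M`. -/
theorem mem_fixingSubgroup_of_absNorm_eq {𝔔 : Ideal (𝓞 L)} [𝔔.IsPrime] (h𝔔 : 𝔔 ≠ ⊥)
    (hram : 𝔔.ramificationIdx (𝓞 E) = 1)
    {σ : L ≃ₐ[E] L} (hσ : IsArithFrobAt (𝓞 E) σ 𝔔)
    (hN : absNorm (𝔔.under (𝓞 M)) = absNorm (𝔔.under (𝓞 E))) : σ ∈ M.fixingSubgroup := by
  set 𝔓 := 𝔔.under (𝓞 M) with h𝔓
  set 𝔭 := 𝔔.under (𝓞 E) with h𝔭
  have h𝔓ne : 𝔓 ≠ ⊥ := mt Ideal.eq_bot_of_comap_eq_bot h𝔔
  have h𝔭ne : 𝔭 ≠ ⊥ := mt Ideal.eq_bot_of_comap_eq_bot h𝔔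
  haveI : 𝔓.IsMaximal := Ring.HasFiniteQuotients.maximalOfPrime h𝔓ne
  haveI : 𝔭.IsMaximal := Ring.HasFiniteQuotients.maximalOfPrime h𝔭ne
  haveI : Finite (𝓞 M ⧸ 𝔓) := Ring.HasFiniteQuotients.finiteQuotient h𝔓ne
  haveI : Finite (𝓞 E ⧸ 𝔭) := Ring.HasFiniteQuotients.finiteQuotient h𝔭ne
  haveI : 𝔓.LiesOver 𝔭 := ⟨(under_under_int M 𝔔).symm⟩
  haveI : 𝔔.LiesOver 𝔓 := ⟨rfl⟩
  letI : Field (𝓞 M ⧸ 𝔓) := Ideal.Quotient.field 𝔓
  letI : Fintype (𝓞 M ⧸ 𝔓) := Fintype.ofFinite _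
  rw [Ideal.absNorm_apply, Submodule.cardQuot_apply, Ideal.absNorm_apply,
    Submodule.cardQuot_apply] at hN
  set τ := σ.restrictNormal M with hτ
  have hτF : IsArithFrobAt (𝓞 E) τ 𝔓 := isArithFrobAt_restrict M hσ
  -- τ lies in the inertia group of 𝔓
  have hin : τ ∈ 𝔓.inertia (M ≃ₐ[E] M) := by
    intro y
    have h1 := hτF y
    have h3 : (MulSemiringAction.toAlgHom (𝓞 E) (𝓞 M) τ) y = τ • y := rfl
    rw [h3, under_under_int, ← h𝔭, ← hN] at h1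
    have h2 : y ^ Nat.card (𝓞 M ⧸ 𝔓) - y ∈ 𝔓 := by
      rw [← Ideal.Quotient.eq, map_pow, Nat.card_eq_fintype_card, FiniteField.pow_card]
    have := add_mem h1 h2
    simpa using this
  -- the inertia group is trivial
  have hcard : Nat.card (𝔓.inertia (M ≃ₐ[E] M)) = 1 := by
    rw [Ideal.card_inertia_eq_ramificationIdxIn 𝔭 𝔓,
      Ideal.ramificationIdxIn_eq_ramificationIdx 𝔭 𝔓 (M ≃ₐ[E] M)]
    have ht := Ideal.ramificationIdx_tower (R := 𝓞 E) 𝔓 𝔔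
    rw [hram] at ht
    exact Nat.eq_one_of_mul_eq_one_right ht.symm
  have hτ1 : τ = 1 := by
    have := (Subgroup.card_eq_one.mp hcard)
    rw [this] at hin
    exact Subgroup.mem_bot.mp hin
  rw [IntermediateField.mem_fixingSubgroup_iff]
  intro x hx
  have := AlgEquiv.restrictNormal_commutes σ M ⟨x, hx⟩
  rw [← hτ, hτ1] at this
  exact this.symm

/-- the count: a prime of `M` over `𝔭` with `e = 1` and the same norm as `𝔭` forces exactly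
`[M : E]` primes over `𝔭`, all of the same norm. -/
theorem ncard_primesOver_of_absNorm_eq {𝔭 : Ideal (𝓞 E)} [𝔭.IsPrime] (h𝔭 : 𝔭 ≠ ⊥)
    (𝔓 : Ideal (𝓞 M)) [𝔓.IsPrime] [𝔓.LiesOver 𝔭] (he : 𝔓.ramificationIdx (𝓞 E) = 1)
    (hf : absNorm 𝔓 = absNorm 𝔭) :
    (𝔭.primesOver (𝓞 M)).ncard = Module.finrank E M ∧
      ∀ 𝔓' ∈ 𝔭.primesOver (𝓞 M), absNorm 𝔓' = absNorm 𝔭 := by
  haveI : 𝔭.IsMaximal := Ring.HasFiniteQuotients.maximalOfPrime h𝔭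
  have hq1 : 1 < absNorm 𝔭 := by
    haveI : Finite (𝓞 E ⧸ 𝔭) := Ring.HasFiniteQuotients.finiteQuotient h𝔭
    rw [Ideal.absNorm_apply, Submodule.cardQuot_apply]
    exact Finite.one_lt_card
  have hf1 : 𝔓.inertiaDeg (𝓞 E) = 1 := by
    have h := Ideal.absNorm_pow_inertiaDeg 𝔭 𝔓
    rw [hf] at h
    exact Nat.pow_right_injective hq1 (by simpa using h)
  have hcount := Ideal.ncard_primesOver_mul_ramificationIdxIn_mul_inertiaDegIn 𝔭 (𝓞 M)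
    (M ≃ₐ[E] M)
  rw [Ideal.ramificationIdxIn_eq_ramificationIdx 𝔭 𝔓 (M ≃ₐ[E] M),
    Ideal.inertiaDegIn_eq_inertiaDeg 𝔭 𝔓 (M ≃ₐ[E] M), he, hf1, mul_one, mul_one,
    IsGalois.card_aut_eq_finrank] at hcount
  refine ⟨hcount, ?_⟩
  rintro 𝔓' ⟨h1, h2⟩
  haveI := h1
  haveI := h2
  have h := Ideal.absNorm_pow_inertiaDeg 𝔭 𝔓'
  rw [Ideal.inertiaDeg_eq_of_isGaloisGroup 𝔭 𝔓' 𝔓 (M ≃ₐ[E] M), hf1, pow_one] at h
  exact h.symm

end core

/-! ### the fibre count in the form consumed by `Relative.CountHyp` -/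

section final

variable {K L : Type*} [Field K] [NumberField K] [Field L] [NumberField L] [Algebra K L]
  [IsGalois K L]

/-- primes of `L` over a rational prime outside `bad` are unramified over `K`. -/
theorem ramificationIdx_eq_one_of_badOK {bad : Finset ℕ} (hbad : BadOK L bad) {ℓ : ℕ}
    (hℓ : ℓ.Prime) (hℓbad : ℓ ∉ bad) (𝔔 : Ideal (𝓞 L)) [𝔔.IsPrime] (hmem : (ℓ : 𝓞 L) ∈ 𝔔) :
    𝔔.ramificationIdx (𝓞 K) = 1 := by
  have hnd : ¬ ((ℓ : ℤ) ∣ NumberField.discr L) := fun h => hℓbad (hbad ℓ hℓ h)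
  have hun : Algebra.IsUnramifiedAt ℤ 𝔔 :=
    (NumberField.not_dvd_discr_iff_forall_mem L (𝓞 L) (Nat.prime_iff_prime_int.mp hℓ)).mp hnd 𝔔
      inferInstance (by simpa using hmem)
  haveI : Algebra.IsUnramifiedAt (𝓞 K) 𝔔 :=
    Algebra.FormallyUnramified.of_restrictScalars ℤ (𝓞 K) (Localization.AtPrime 𝔔)
  exact Ideal.ramificationIdx_eq_one 𝔔 (𝓞 K)

/-- `IsFrob` with the right exponent is Mathlib's `IsArithFrobAt`. -/
theorem isArithFrobAt_of_isFrob {𝔭 : Ideal (𝓞 K)} {𝔔 : Ideal (𝓞 L)}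
    (h𝔔 : 𝔔.under (𝓞 K) = 𝔭) {σ : L ≃ₐ[K] L} (hσ : IsFrob σ 𝔔 (Ideal.absNorm 𝔭)) :
    IsArithFrobAt (𝓞 K) σ 𝔔 := by
  intro x
  have h2 : (MulSemiringAction.toAlgHom (𝓞 K) (𝓞 L) σ) x = σ • x := rfl
  rw [h2, h𝔔, ← Submodule.cardQuot_apply, ← Ideal.absNorm_apply]
  exact hσ x

theorem natCast_absNorm_mem {𝔭 : Ideal (𝓞 K)} {𝔔 : Ideal (𝓞 L)}
    (h𝔔 : 𝔔.under (𝓞 K) = 𝔭) : ((Ideal.absNorm 𝔭 : ℕ) : 𝓞 L) ∈ 𝔔 := by
  have h1 : ((Ideal.absNorm 𝔭 : ℕ) : 𝓞 K) ∈ 𝔭 := Ideal.absNorm_mem 𝔭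
  rw [← h𝔔] at h1
  have h2 := Ideal.mem_comap.mp h1
  rw [map_natCast, h𝔔] at h2
  exact h2

theorem normal_of_comm (hcomm : ∀ a b : L ≃ₐ[K] L, a * b = b * a) (H : Subgroup (L ≃ₐ[K] L)) :
    H.Normal :=
  ⟨fun n hn g => by rw [hcomm g n, mul_inv_cancel_right]; exact hn⟩

/-- the fibre is the set of primes over `𝔭`, once all of them have the norm of `𝔭`. -/
theorem asIdeal_image_fiber {F : Type*} [Field F] [NumberField F] [Algebra K F] {bad : Finset ℕ}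
    (𝔭 : HeightOneSpectrum (𝓞 K)) (h𝔭 : 𝔭 ∈ P1 K bad)
    (hall : ∀ 𝔓' ∈ 𝔭.asIdeal.primesOver (𝓞 F), absNorm 𝔓' = absNorm 𝔭.asIdeal) :
    HeightOneSpectrum.asIdeal '' (fiber K F bad 𝔭) = 𝔭.asIdeal.primesOver (𝓞 F) := by
  ext P
  constructor
  · rintro ⟨𝔓, ⟨-, hb⟩, rfl⟩
    refine ⟨𝔓.isPrime, ⟨?_⟩⟩
    rw [← hb]
    rfl
  · rintro ⟨hP1, hP2⟩
    have hPne : P ≠ ⊥ := by
      intro h0
      have := hP2.over
      rw [h0, Ideal.under_bot] at this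
      exact 𝔭.ne_bot this
    refine ⟨⟨P, hP1, hPne⟩, ⟨?_, ?_⟩, rfl⟩
    · have hn : absNorm P = absNorm 𝔭.asIdeal := hall P ⟨hP1, hP2⟩
      exact ⟨by rw [show absNorm (⟨P, hP1, hPne⟩ : HeightOneSpectrum (𝓞 F)).asIdeal = absNorm P
        from rfl, hn]; exact h𝔭.1, by rw [show absNorm (⟨P, hP1, hPne⟩ :
          HeightOneSpectrum (𝓞 F)).asIdeal = absNorm P from rfl, hn]; exact h𝔭.2⟩
    · apply HeightOneSpectrum.ext
      rw [below_asIdeal]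
      exact hP2.over.symm

theorem ncard_fiber_of_mem (hcomm : ∀ a b : L ≃ₐ[K] L, a * b = b * a) {bad : Finset ℕ}
    (hbad : BadOK L bad) (H : Subgroup (L ≃ₐ[K] L)) (𝔭 : HeightOneSpectrum (𝓞 K))
    (h𝔭 : 𝔭 ∈ P1 K bad) (𝔔 : Ideal (𝓞 L)) [𝔔.IsPrime] (h𝔔 : 𝔔.under (𝓞 K) = 𝔭.asIdeal)
    (σ : L ≃ₐ[K] L) (hσ : IsFrob σ 𝔔 (Ideal.absNorm 𝔭.asIdeal)) (hσH : σ ∈ H) :
    (fiber K (IntermediateField.fixedField H) bad 𝔭).ncard = H.index := by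
  haveI : H.Normal := normal_of_comm hcomm H
  set F := IntermediateField.fixedField H with hF
  have hfix : F.fixingSubgroup = H := IntermediateField.fixingSubgroup_fixedField H
  haveI := 𝔭.isPrime
  have hσA : IsArithFrobAt (𝓞 K) σ 𝔔 := isArithFrobAt_of_isFrob h𝔔 hσ
  have h𝔔ne : 𝔔 ≠ ⊥ := by
    intro h0
    rw [h0, Ideal.under_bot] at h𝔔
    exact 𝔭.ne_bot h𝔔.symm
  have hmem : ((Ideal.absNorm 𝔭.asIdeal : ℕ) : 𝓞 L) ∈ 𝔔 := natCast_absNorm_mem h𝔔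
  have hram : 𝔔.ramificationIdx (𝓞 K) = 1 :=
    ramificationIdx_eq_one_of_badOK hbad h𝔭.1 h𝔭.2 𝔔 hmem
  have hN : absNorm (𝔔.under (𝓞 F)) = absNorm (𝔔.under (𝓞 K)) :=
    absNorm_under_eq_of_mem_fixingSubgroup F h𝔔ne hσA (hfix ▸ hσH)
  haveI : (𝔔.under (𝓞 F)).LiesOver 𝔭.asIdeal := ⟨by rw [under_under_int, h𝔔]⟩
  haveI : 𝔔.LiesOver (𝔔.under (𝓞 F)) := ⟨rfl⟩
  have he : (𝔔.under (𝓞 F)).ramificationIdx (𝓞 K) = 1 := by
    have ht := Ideal.ramificationIdx_tower (R := 𝓞 K) (𝔔.under (𝓞 F)) 𝔔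
    rw [hram] at ht
    exact Nat.eq_one_of_mul_eq_one_right ht.symm
  rw [h𝔔] at hN
  obtain ⟨hcount, hall⟩ := ncard_primesOver_of_absNorm_eq F 𝔭.ne_bot (𝔔.under (𝓞 F)) he hN
  rw [← Set.ncard_image_of_injective _ (fun a b h => HeightOneSpectrum.ext h),
    asIdeal_image_fiber 𝔭 h𝔭 hall, hcount, IntermediateField.finrank_eq_fixingSubgroup_index,
    hfix]

theorem fiber_eq_empty_of_notMem (hcomm : ∀ a b : L ≃ₐ[K] L, a * b = b * a) {bad : Finset ℕ}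
    (hbad : BadOK L bad) (H : Subgroup (L ≃ₐ[K] L)) (𝔭 : HeightOneSpectrum (𝓞 K))
    (h𝔭 : 𝔭 ∈ P1 K bad) (𝔔 : Ideal (𝓞 L)) [𝔔.IsPrime] (h𝔔 : 𝔔.under (𝓞 K) = 𝔭.asIdeal)
    (σ : L ≃ₐ[K] L) (hσ : IsFrob σ 𝔔 (Ideal.absNorm 𝔭.asIdeal)) (hσH : σ ∉ H) :
    fiber K (IntermediateField.fixedField H) bad 𝔭 = ∅ := by
  haveI : H.Normal := normal_of_comm hcomm H
  have hfix : (IntermediateField.fixedField H).fixingSubgroup = H :=
    IntermediateField.fixingSubgroup_fixedField H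
  have hgal : IsGalois K (IntermediateField.fixedField H) := inferInstance
  generalize IntermediateField.fixedField H = F at hfix hgal ⊢
  rw [Set.eq_empty_iff_forall_notMem]
  rintro 𝔓 ⟨hP1, hb⟩
  apply hσH
  haveI := 𝔭.isPrime
  haveI := 𝔓.isPrime
  have hσA : IsArithFrobAt (𝓞 K) σ 𝔔 := isArithFrobAt_of_isFrob h𝔔 hσ
  -- a prime of `L` over `𝔓`
  obtain ⟨⟨𝔔', h𝔔'p, h𝔔'o⟩⟩ := (inferInstance : Nonempty (𝔓.asIdeal.primesOver (𝓞 L)))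
  haveI := h𝔔'p
  have hunderF : 𝔔'.under (𝓞 F) = 𝔓.asIdeal := h𝔔'o.over.symm
  have hbelow : 𝔓.asIdeal.under (𝓞 K) = 𝔭.asIdeal := by
    rw [← below_asIdeal, hb]
  have hunderK : 𝔔'.under (𝓞 K) = 𝔭.asIdeal := by
    rw [← under_under_int F 𝔔', hunderF, hbelow]
  have h𝔔'ne : 𝔔' ≠ ⊥ := by
    intro h0
    rw [h0, Ideal.under_bot] at hunderK
    exact 𝔭.ne_bot hunderK.symm
  -- `𝔔'` is conjugate to `𝔔`, and the Frobenius does not change (abelian group)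
  haveI : 𝔔.LiesOver 𝔭.asIdeal := ⟨h𝔔.symm⟩
  haveI : 𝔔'.LiesOver 𝔭.asIdeal := ⟨hunderK.symm⟩
  obtain ⟨τ, hτ⟩ := Ideal.exists_smul_eq_of_isGaloisGroup 𝔭.asIdeal 𝔔 𝔔' (L ≃ₐ[K] L)
  have hσA' : IsArithFrobAt (𝓞 K) σ 𝔔' := by
    have h := hσA.conj τ
    rw [hτ, hcomm τ σ, mul_inv_cancel_right] at h
    exact h
  have hmem : ((Ideal.absNorm 𝔭.asIdeal : ℕ) : 𝓞 L) ∈ 𝔔' := natCast_absNorm_mem hunderK
  have hram : 𝔔'.ramificationIdx (𝓞 K) = 1 :=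
    ramificationIdx_eq_one_of_badOK hbad h𝔭.1 h𝔭.2 𝔔' hmem
  have hN : absNorm (𝔔'.under (𝓞 F)) = absNorm (𝔔'.under (𝓞 K)) := by
    rw [hunderF, hunderK, ← hb]
    exact (FibreBelow.below_mem_P1 K F hP1).2.symm
  have := mem_fixingSubgroup_of_absNorm_eq F h𝔔'ne hram hσA' hN
  rwa [hfix] at this

end final

end Fermat.Agent.S29.CycCheb.FibreCount
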