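import Mathlib
import Fermat.Prelude.Def_FLTPrelim_Ramification
import Fermat.Prelude.Def_EllipticCurve_FrobeniusTrace
import Fermat.Agent.S13.Minkowski
import Fermat.Agent.S37.FrobeniusEvery

/-!
# Weak cyclic Chebotarev, leaf (K4b): from a prime of `𝓞 L` with its Frobenius to the Prelude language

`L ⊆ ℚ̄` a finite Galois extension of `ℚ`, `ℓ ∤ discr L` a prime number, `𝔔` a prime of `𝓞 L` over
`ℓ` and `σ₀ ∈ Gal(L/ℚ)` with `σ₀ x ≡ x ^ ℓ mod 𝔔` on `𝓞 L`.  Then there are a valuation subring `A`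
of `ℚ̄` over `ℓ` and a Frobenius lift `σ ∈ Gal(ℚ̄/ℚ)` at `A` (in the sense of the Prelude) with
`σ|_L = σ₀`.

* `exists_primeBelow_eq`: a valuation subring of `ℚ̄` centred at a given maximal ideal of `𝓞 L`;
* `restrict_isFrob`: the restriction to `L` of a Frobenius lift at `A` is a Frobenius at the prime
  of `𝓞 L` below `A`;
* `eq_of_isFrob`: uniqueness of the Frobenius at an unramified prime (Mathlib's
  `AlgHom.IsArithFrobAt.eq_of_isUnramifiedAt` + `NumberField.not_dvd_discr_iff_forall_mem`);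
* `exists_frobenius_lift`: the statement consumed by `CycCheb/Main`.
-/

set_option autoImplicit false

namespace Fermat.Agent.S29.CycCheb.Lift

open scoped NumberField Pointwise nonZeroDivisors
open ValuationSubring
open Fermat.Agent.S13.Minkowski

local notation "Qbar" => AlgebraicClosure ℚ

/-- (T1) a valuation subring of `ℚ̄` whose centre on `𝓞 L` is a given maximal ideal. -/
theorem exists_primeBelow_eq (L : IntermediateField ℚ Qbar)
    (𝔔 : Ideal (𝓞 L)) (hmax : 𝔔.IsMaximal) :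
    ∃ A : ValuationSubring Qbar, primeBelow A L = 𝔔 := by
  classical
  let f : 𝓞 L →+* Qbar := (algebraMap L Qbar).comp (algebraMap (𝓞 L) L)
  have hf : Function.Injective f :=
    (algebraMap L Qbar).injective.comp NumberField.RingOfIntegers.coe_injective
  let R : Subring Qbar := f.range
  let f' : 𝓞 L →+* R := f.rangeRestrict
  have hf' : Function.Surjective f' := f.rangeRestrict_surjective
  let I : Ideal R := Ideal.map f' 𝔔
  have hI : I ≠ ⊤ := by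
    intro htop
    have h1 : (1 : R) ∈ I := htop ▸ Submodule.mem_top
    rw [Ideal.mem_map_iff_of_surjective f' hf'] at h1
    obtain ⟨x, hx, hx1⟩ := h1
    have h2 : f x = f 1 := by
      rw [map_one]
      exact congrArg Subtype.val hx1
    have h3 : x = 1 := hf h2
    exact hmax.ne_top ((Ideal.eq_top_iff_one 𝔔).mpr (h3 ▸ hx))
  obtain ⟨A, -, hA⟩ := Ideal.image_subset_nonunits_valuationSubring I hI
  refine ⟨A, ?_⟩
  have hle : 𝔔 ≤ primeBelow A L := by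
    intro x hx
    rw [mem_primeBelow]
    have h1 : (f' x : Qbar) ∈ A.nonunits :=
      hA ⟨f' x, Ideal.mem_map_of_mem f' hx, rfl⟩
    exact (A.mem_nonunits_iff).mp h1
  exact (hmax.eq_of_le (primeBelow_isPrime A L).ne_top hle).symm

/-- Algebraic integers of `L` lie in every valuation subring of `ℚ̄`. -/
theorem coe_mem (L : IntermediateField ℚ Qbar) (A : ValuationSubring Qbar) (x : 𝓞 L) :
    (((x : L)) : Qbar) ∈ A := by
  have h1 : IsIntegral ℤ (x : L) := NumberField.RingOfIntegers.isIntegral_coe x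
  have h2 : IsIntegral ℤ (((x : L)) : Qbar) := map_isIntegral_int (algebraMap L Qbar) h1
  exact (A.valuation_le_one_iff _).mp (Fermat.Agent.S13.ValInt.valuation_le_one_of_isIntegral A h2)

/-- (T2) the restriction to `L` of a Frobenius lift at `A` is a Frobenius at `primeBelow A L`. -/
theorem restrict_isFrob (L : IntermediateField ℚ Qbar) [Normal ℚ L] (A : ValuationSubring Qbar)
    {σ : Qbar ≃ₐ[ℚ] Qbar} {ℓ : ℕ} (hσ : A.IsFrobeniusAt σ ℓ) (x : 𝓞 L) :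
    (AlgEquiv.restrictNormalHom L σ) • x - x ^ ℓ ∈ primeBelow A L := by
  rw [mem_primeBelow]
  obtain ⟨-, hres⟩ := Fermat.Agent.S37.FrobeniusEvery.isFrobeniusAt_iff_forall.mp hσ
  have h1 := hres _ (coe_mem L A x)
  have e : ((((AlgEquiv.restrictNormalHom L σ) • x - x ^ ℓ : 𝓞 L) : L) : Qbar)
      = σ ((x : L) : Qbar) - ((x : L) : Qbar) ^ ℓ := by
    have e1 : (((AlgEquiv.restrictNormalHom L σ) • x - x ^ ℓ : 𝓞 L) : L)
        = (AlgEquiv.restrictNormalHom L σ) (x : L) - (x : L) ^ ℓ := by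
      show algebraMap (𝓞 L) L ((AlgEquiv.restrictNormalHom L σ) • x - x ^ ℓ) = _
      rw [map_sub, map_pow]
      rfl
    rw [e1]
    have e2 : (((AlgEquiv.restrictNormalHom L σ) (x : L) : L) : Qbar) = σ ((x : L) : Qbar) :=
      AlgEquiv.restrictNormal_commutes σ L (x : L)
    rw [← e2]
    rfl
  rw [e]
  exact (A.mem_nonunits_iff).mp h1

theorem under_int_eq_span {S : Type*} [CommRing S] (𝔔 : Ideal S) [𝔔.IsPrime] {ℓ : ℕ}
    (hℓ : ℓ.Prime) (hℓ𝔔 : (ℓ : S) ∈ 𝔔) : 𝔔.under ℤ = Ideal.span {(ℓ : ℤ)} := by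
  have hmax : (Ideal.span {(ℓ : ℤ)}).IsMaximal :=
    PrincipalIdealRing.isMaximal_of_irreducible (Nat.prime_iff_prime_int.mp hℓ).irreducible
  have hle : Ideal.span {(ℓ : ℤ)} ≤ 𝔔.under ℤ := by
    rw [Ideal.span_singleton_le_iff_mem, Ideal.under_def, Ideal.mem_comap]
    simpa using hℓ𝔔
  have hne : 𝔔.under ℤ ≠ ⊤ := Ideal.IsPrime.ne_top inferInstance
  exact (hmax.eq_of_le hne hle).symm

theorem card_quot_under {S : Type*} [CommRing S] (𝔔 : Ideal S) [𝔔.IsPrime] {ℓ : ℕ}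
    (hℓ : ℓ.Prime) (hℓ𝔔 : (ℓ : S) ∈ 𝔔) : Nat.card (ℤ ⧸ 𝔔.under ℤ) = ℓ := by
  rw [under_int_eq_span 𝔔 hℓ hℓ𝔔]
  exact Int.card_ideal_quot ℓ

/-- (T3) uniqueness of the Frobenius at a prime over `ℓ ∤ discr L`. -/
theorem eq_of_isFrob (L : Type*) [Field L] [NumberField L] {ℓ : ℕ} (hℓ : ℓ.Prime)
    (hdisc : ¬ (ℓ : ℤ) ∣ NumberField.discr L) (𝔔 : Ideal (𝓞 L)) [𝔔.IsPrime]
    (hℓ𝔔 : (ℓ : 𝓞 L) ∈ 𝔔) (σ₁ σ₂ : L ≃ₐ[ℚ] L)
    (h₁ : ∀ x : 𝓞 L, σ₁ • x - x ^ ℓ ∈ 𝔔) (h₂ : ∀ x : 𝓞 L, σ₂ • x - x ^ ℓ ∈ 𝔔) : σ₁ = σ₂ := by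
  have hunr : Algebra.IsUnramifiedAt ℤ 𝔔 :=
    (NumberField.not_dvd_discr_iff_forall_mem L (𝓞 L) (Nat.prime_iff_prime_int.mp hℓ)).mp hdisc
      𝔔 inferInstance (by simpa using hℓ𝔔)
  have hcard := card_quot_under 𝔔 hℓ hℓ𝔔
  have H₁ : (MulSemiringAction.toAlgHom ℤ (𝓞 L) σ₁).IsArithFrobAt 𝔔 := by
    intro x
    rw [hcard]
    exact h₁ x
  have H₂ : (MulSemiringAction.toAlgHom ℤ (𝓞 L) σ₂).IsArithFrobAt 𝔔 := by
    intro x
    rw [hcard]
    exact h₂ x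
  have hQ : 𝔔.primeCompl ≤ (𝓞 L)⁰ := by
    intro x hx
    refine mem_nonZeroDivisors_of_ne_zero ?_
    rintro rfl
    exact hx (Ideal.zero_mem 𝔔)
  have heq := H₁.eq_of_isUnramifiedAt H₂ hQ
  have hint : ∀ x : 𝓞 L, σ₁ (x : L) = σ₂ (x : L) := by
    intro x
    have := DFunLike.congr_fun heq x
    exact congrArg (fun y : 𝓞 L => (y : L)) this
  ext y
  obtain ⟨a, b, hb, rfl⟩ := IsFractionRing.div_surjective (A := 𝓞 L) y
  rw [map_div₀, map_div₀]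
  exact congrArg₂ (· / ·) (hint a) (hint b)

/-- **(K4b)** From a prime `𝔔` of `𝓞 L` over an unramified prime number `ℓ` together with its
Frobenius `σ₀ ∈ Gal(L/ℚ)` to a valuation subring `A` of `ℚ̄` over `ℓ` and a Frobenius lift `σ` at
`A` restricting to `σ₀` on `L`. -/
theorem exists_frobenius_lift (L : IntermediateField ℚ (AlgebraicClosure ℚ))
    [FiniteDimensional ℚ L] [IsGalois ℚ L] [NumberField L] (ℓ : ℕ) (hℓ : ℓ.Prime)
    (hdisc : ¬ (ℓ : ℤ) ∣ NumberField.discr L) (𝔔 : Ideal (𝓞 L)) [𝔔.IsPrime]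
    (hℓ𝔔 : (ℓ : 𝓞 L) ∈ 𝔔) (σ₀ : L ≃ₐ[ℚ] L) (hσ₀ : ∀ x : 𝓞 L, σ₀ • x - x ^ ℓ ∈ 𝔔) :
    ∃ (A : ValuationSubring (AlgebraicClosure ℚ))
      (σ : AlgebraicClosure ℚ ≃ₐ[ℚ] AlgebraicClosure ℚ),
      A.LiesOverPrime ℓ ∧ A.IsFrobeniusAt σ ℓ ∧
        ∀ x : L, σ (x : AlgebraicClosure ℚ) = (σ₀ x : L) := by
  have h0 : 𝔔 ≠ ⊥ := by
    rintro rfl
    have h1 : (ℓ : 𝓞 L) = 0 := by simpa using hℓ𝔔
    have h2 : (ℓ : 𝓞 L) ≠ 0 := Nat.cast_ne_zero.mpr hℓ.ne_zero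
    exact h2 h1
  have hmax : 𝔔.IsMaximal := Ideal.IsPrime.isMaximal inferInstance h0
  obtain ⟨A, hA𝔔⟩ := exists_primeBelow_eq L 𝔔 hmax
  have hA : A.LiesOverPrime ℓ := by
    have h1 : (ℓ : 𝓞 L) ∈ primeBelow A L := hA𝔔 ▸ hℓ𝔔
    rw [mem_primeBelow] at h1
    have h2 : ((((ℓ : 𝓞 L)) : L) : Qbar) = (ℓ : Qbar) := by simp
    rw [h2] at h1
    exact (A.mem_nonunits_iff).mpr h1
  obtain ⟨σ, hσ⟩ := Fermat.Agent.S37.FrobeniusEvery.exists_isFrobeniusAt_of_liesOver hℓ A hA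
  refine ⟨A, σ, hA, hσ, ?_⟩
  have hres : ∀ x : 𝓞 L, (AlgEquiv.restrictNormalHom L σ) • x - x ^ ℓ ∈ 𝔔 := fun x =>
    hA𝔔 ▸ restrict_isFrob L A hσ x
  have heq : AlgEquiv.restrictNormalHom L σ = σ₀ :=
    eq_of_isFrob L hℓ hdisc 𝔔 hℓ𝔔 _ _ hres hσ₀
  intro x
  rw [← heq]
  exact (AlgEquiv.restrictNormal_commutes σ L x).symm

end Fermat.Agent.S29.CycCheb.Lift
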