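import Fermat.Agent.S29.CycCheb.MainOf
import Fermat.Agent.S29.CycCheb.FibreCount
import Fermat.Agent.S29.CycCheb.Lift

/-!
# Weak cyclic Chebotarev (Frobenius 1896), unconditional

For a finite Galois extension `L/ℚ` inside `ℚ̄`, an element `g` of the absolute Galois group and
a finite set `bad` of primes, there are a prime `ℓ ∉ bad`, a valuation subring `A` of `ℚ̄` over
`ℓ` and a Frobenius lift `σ` at `A` such that `σ|_L` and `g|_L` generate the same cyclic subgroup
of `Gal(L/ℚ)`.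

Chain: `LogZeta` (simple pole of Dedekind zeta functions over primes of degree one), `FibreSum`
(fibrewise summation), `Sieve` (inclusion-exclusion over the maximal subgroups of a cyclic group),
`FibreBelow`/`FibreCount` (algebraic count of primes of degree one in the fixed fields),
`Relative` (cyclic extension of number fields), `Lift` (from primes of `𝓞 L` to valuation
subrings of `ℚ̄`), `MainOf` (reduction over `ℚ`).
-/

set_option autoImplicit false

open NumberField IsDedekindDomain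

namespace Fermat.Agent.S29.CycCheb.Main

open Fermat.Agent.S29.CycCheb

/-- The algebraic fibre count for all abelian extensions of number fields. -/
theorem countAll : MainOf.CountAll := by
  intro K L _ _ _ _ _ _ bad hbad hcomm
  exact
    { below_mem := fun H 𝔓 h => FibreBelow.below_mem_P1 K _ h
      exists_frob := fun 𝔭 h => FibreBelow.exists_isFrob hbad 𝔭 h
      ncard_fiber := fun H 𝔭 h𝔭 𝔔 h𝔔p h𝔔 σ hσ hσH => by
        have := h𝔔p
        exact FibreCount.ncard_fiber_of_mem hcomm hbad H 𝔭 h𝔭 𝔔 h𝔔 σ hσ hσH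
      fiber_empty := fun H 𝔭 h𝔭 𝔔 h𝔔p h𝔔 σ hσ hσH => by
        have := h𝔔p
        exact FibreCount.fiber_eq_empty_of_notMem hcomm hbad H 𝔭 h𝔭 𝔔 h𝔔 σ hσ hσH }

/-- The lifting statement. -/
theorem liftStmt : MainOf.LiftStmt :=
  fun L _ _ _ ℓ hℓ hdisc 𝔔 _ hℓ𝔔 σ₀ hσ₀ =>
    Lift.exists_frobenius_lift L ℓ hℓ hdisc 𝔔 hℓ𝔔 σ₀ hσ₀

/-- **Weak cyclic Chebotarev**, as a `Prop`. -/
theorem cycChebStatement : MainOf.CycChebStatement := MainOf.cycCheb_of countAll liftStmt

/-- **Weak cyclic Chebotarev.** -/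
theorem exists_frobenius_generator (L : IntermediateField ℚ (AlgebraicClosure ℚ))
    [FiniteDimensional ℚ L] [IsGalois ℚ L]
    (g : AlgebraicClosure ℚ ≃ₐ[ℚ] AlgebraicClosure ℚ) (bad : Finset ℕ) :
    ∃ (ℓ : ℕ) (A : ValuationSubring (AlgebraicClosure ℚ))
      (σ : AlgebraicClosure ℚ ≃ₐ[ℚ] AlgebraicClosure ℚ) (i j : ℕ),
      ℓ.Prime ∧ ℓ ∉ bad ∧ A.LiesOverPrime ℓ ∧ A.IsFrobeniusAt σ ℓ ∧
        (∀ x ∈ L, σ x = (g ^ i) x) ∧ (∀ x ∈ L, g x = (σ ^ j) x) :=
  cycChebStatement L g bad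

end Fermat.Agent.S29.CycCheb.Main
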