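import Fermat.Agent.S29.CycCheb.Relative
import Fermat.Prelude.Def_EllipticCurve_FrobeniusTrace

/-!
# Weak cyclic Chebotarev over `ℚ` in the language of the Prelude, hypothesis-style

From the relative theorem (`Relative.exists_prime_frob_generates_of`), the algebraic fibre count
for all relative abelian extensions (`CountAll`) and the lifting statement (`LiftStmt`): for a
finite Galois `L/ℚ` inside `ℚ̄`, `g ∈ G_ℚ` and a finite set `bad` of primes there are a prime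
`ℓ ∉ bad`, a valuation subring `A` of `ℚ̄` over `ℓ` and a Frobenius lift `σ` at `A` such that
`σ|_L` and `g|_L` generate the same cyclic subgroup of `Gal(L/ℚ)`.
-/

set_option autoImplicit false
set_option linter.style.haveILetI false

open NumberField IsDedekindDomain nonZeroDivisors
open Fermat.Agent.S29.CycCheb.LogZeta

namespace Fermat.Agent.S29.CycCheb.MainOf

/-- The algebraic fibre count for all abelian extensions of number fields. -/
def CountAll : Prop :=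
  ∀ (K L : Type) [Field K] [NumberField K] [Field L] [NumberField L] [Algebra K L]
    [IsGalois K L] (bad : Finset ℕ), BadOK L bad → (∀ a b : L ≃ₐ[K] L, a * b = b * a) →
    Relative.CountHyp K L bad

/-- The lifting statement (`Lift.exists_frobenius_lift`). -/
def LiftStmt : Prop :=
  ∀ (L : IntermediateField ℚ (AlgebraicClosure ℚ)) [FiniteDimensional ℚ L] [IsGalois ℚ L]
    [NumberField L] (ℓ : ℕ), ℓ.Prime → ¬ (ℓ : ℤ) ∣ NumberField.discr L →
    ∀ (𝔔 : Ideal (𝓞 L)) [𝔔.IsPrime], (ℓ : 𝓞 L) ∈ 𝔔 →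
    ∀ σ₀ : L ≃ₐ[ℚ] L, (∀ x : 𝓞 L, σ₀ • x - x ^ ℓ ∈ 𝔔) →
    ∃ (A : ValuationSubring (AlgebraicClosure ℚ))
      (σ : AlgebraicClosure ℚ ≃ₐ[ℚ] AlgebraicClosure ℚ),
      A.LiesOverPrime ℓ ∧ A.IsFrobeniusAt σ ℓ ∧
        ∀ x : L, σ (x : AlgebraicClosure ℚ) = (σ₀ x : L)

/-- The statement of weak cyclic Chebotarev consumed by the assembly. -/
def CycChebStatement : Prop :=
  ∀ (L : IntermediateField ℚ (AlgebraicClosure ℚ)) [FiniteDimensional ℚ L] [IsGalois ℚ L]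
    (g : AlgebraicClosure ℚ ≃ₐ[ℚ] AlgebraicClosure ℚ) (bad : Finset ℕ),
    ∃ (ℓ : ℕ) (A : ValuationSubring (AlgebraicClosure ℚ))
      (σ : AlgebraicClosure ℚ ≃ₐ[ℚ] AlgebraicClosure ℚ) (i j : ℕ),
      ℓ.Prime ∧ ℓ ∉ bad ∧ A.LiesOverPrime ℓ ∧ A.IsFrobeniusAt σ ℓ ∧
        (∀ x ∈ L, σ x = (g ^ i) x) ∧ (∀ x ∈ L, g x = (σ ^ j) x)

section aux

variable {L : IntermediateField ℚ (AlgebraicClosure ℚ)} [FiniteDimensional ℚ L] [IsGalois ℚ L]

theorem restrictNormalHom_apply_coe (τ : AlgebraicClosure ℚ ≃ₐ[ℚ] AlgebraicClosure ℚ) (x : L) :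
    ((AlgEquiv.restrictNormalHom L τ x : L) : AlgebraicClosure ℚ) = τ (x : AlgebraicClosure ℚ) :=
  AlgEquiv.restrictNormal_commutes τ L x

end aux

theorem cycCheb_of (hcount : CountAll) (hlift : LiftStmt) : CycChebStatement := by
  classical
  intro L _ _ g bad
  haveI : NumberField L := ⟨⟩
  set gL : L ≃ₐ[ℚ] L := AlgEquiv.restrictNormalHom L g with hgL
  set C : Subgroup (L ≃ₐ[ℚ] L) := Subgroup.zpowers gL with hC
  set K : IntermediateField ℚ L := IntermediateField.fixedField C with hK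
  -- the Galois group of `L/K`
  have hfix : K.fixingSubgroup = C := IntermediateField.fixingSubgroup_fixedField C
  let e : K.fixingSubgroup ≃* (L ≃ₐ[K] L) := IntermediateField.fixingSubgroupEquiv K
  haveI : IsCyclic C := Subgroup.isCyclic_zpowers gL
  haveI : IsCyclic K.fixingSubgroup := by rw [hfix]; infer_instance
  haveI : IsCyclic (L ≃ₐ[K] L) := isCyclic_of_surjective e e.surjective
  have hcomm : ∀ a b : L ≃ₐ[K] L, a * b = b * a := fun a b =>
    (IsCyclic.commGroup (α := L ≃ₐ[K] L)).mul_comm a b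
  -- the bad set
  set bad' : Finset ℕ := bad ∪ (NumberField.discr L).natAbs.primeFactors with hbad'
  have hbadOK : BadOK L bad' := by
    intro ℓ hℓ hdvd
    rw [hbad', Finset.mem_union]
    right
    rw [Nat.mem_primeFactors]
    refine ⟨hℓ, Int.natCast_dvd.mp hdvd, ?_⟩
    rw [Ne, Int.natAbs_eq_zero]
    exact NumberField.discr_ne_zero L
  obtain ⟨𝔭, 𝔔, h𝔔, σ, h𝔭, hunder, hfrob, hord⟩ :=
    Relative.exists_prime_frob_generates_of (hcount K L bad' hbadOK hcomm)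
  set ℓ := Ideal.absNorm 𝔭.asIdeal with hℓdef
  have hℓ : ℓ.Prime := h𝔭.1
  have hℓbad' : ℓ ∉ bad' := h𝔭.2
  have hℓbad : ℓ ∉ bad := fun h => hℓbad' (Finset.mem_union_left _ h)
  have hdisc : ¬ (ℓ : ℤ) ∣ NumberField.discr L := fun h => hℓbad' (hbadOK ℓ hℓ h)
  have hℓ𝔔 : (ℓ : 𝓞 L) ∈ 𝔔 := by
    have h1 : ((ℓ : ℕ) : 𝓞 K) ∈ 𝔭.asIdeal := Ideal.absNorm_mem 𝔭.asIdeal
    rw [← hunder, Ideal.under_def, Ideal.mem_comap, map_natCast] at h1
    exact h1
  -- the Frobenius over `ℚ`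
  set σ₀ : L ≃ₐ[ℚ] L := σ.restrictScalars ℚ with hσ₀
  have hσ₀frob : ∀ x : 𝓞 L, σ₀ • x - x ^ ℓ ∈ 𝔔 := fun x => hfrob x
  haveI := h𝔔
  obtain ⟨A, σt, hA, hFrob, hres⟩ := hlift L ℓ hℓ hdisc 𝔔 hℓ𝔔 σ₀ hσ₀frob
  -- `σ₀ ∈ C` has order `|C|`
  have hσ₀C : σ₀ ∈ C := by
    rw [← hfix]
    exact (e.symm σ).2
  have hcard : Nat.card (L ≃ₐ[K] L) = Nat.card C := by
    rw [← Nat.card_congr e.toEquiv, hfix]
  have hordσ₀ : orderOf σ₀ = orderOf σ := by
    have : σ₀ = ((e.symm σ : K.fixingSubgroup) : L ≃ₐ[ℚ] L) := rfl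
    rw [this, Subgroup.orderOf_coe, MulEquiv.orderOf_eq]
  have hzp : Subgroup.zpowers σ₀ = C := by
    have hle : Subgroup.zpowers σ₀ ≤ C := (Subgroup.zpowers_le).mpr hσ₀C
    have hc : Nat.card (Subgroup.zpowers σ₀) = Nat.card C := by
      rw [Nat.card_zpowers σ₀, hordσ₀, hord, hcard]
    exact Subgroup.eq_of_le_of_card_ge hle hc.ge
  have hi : ∃ i : ℕ, gL ^ i = σ₀ := by
    have : σ₀ ∈ Subgroup.zpowers gL := hσ₀C
    rw [← mem_powers_iff_mem_zpowers] at this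
    exact this
  have hj : ∃ j : ℕ, σ₀ ^ j = gL := by
    have : gL ∈ Subgroup.zpowers σ₀ := by rw [hzp]; exact Subgroup.mem_zpowers gL
    rw [← mem_powers_iff_mem_zpowers] at this
    exact this
  obtain ⟨i, hi⟩ := hi
  obtain ⟨j, hj⟩ := hj
  have hσtL : AlgEquiv.restrictNormalHom L σt = σ₀ := by
    ext x
    rw [restrictNormalHom_apply_coe, hres]
  refine ⟨ℓ, A, σt, i, j, hℓ, hℓbad, hA, hFrob, ?_, ?_⟩
  · intro x hx
    have h1 := hres ⟨x, hx⟩
    rw [← hi] at h1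
    rw [show (⟨x, hx⟩ : L).1 = x from rfl] at h1
    rw [h1, hgL, ← map_pow, restrictNormalHom_apply_coe]
  · intro x hx
    have h1 : ((AlgEquiv.restrictNormalHom L (σt ^ j) ⟨x, hx⟩ : L) : AlgebraicClosure ℚ) =
        (σt ^ j) x := restrictNormalHom_apply_coe (σt ^ j) ⟨x, hx⟩
    rw [map_pow, hσtL, hj, hgL, restrictNormalHom_apply_coe] at h1
    exact h1

end Fermat.Agent.S29.CycCheb.MainOf
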