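import Fermat.Agent.S29.CycCheb.LogZeta

/-!
# Weak cyclic Chebotarev: shared definitions

`BadOK`, `IsFrob`, the prime `below` a prime of an extension and the `fiber` of good primes of
degree one over a good prime of degree one.
-/

set_option autoImplicit false

open NumberField IsDedekindDomain nonZeroDivisors
open Fermat.Agent.S29.CycCheb.LogZeta

namespace Fermat.Agent.S29.CycCheb

/-- All rational primes dividing the discriminant of `L` (i.e. ramified in `L`) are in `bad`. -/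
def BadOK (L : Type*) [Field L] [NumberField L] (bad : Finset ℕ) : Prop :=
  ∀ ℓ : ℕ, ℓ.Prime → (ℓ : ℤ) ∣ NumberField.discr L → ℓ ∈ bad

/-- `σ` is a Frobenius at the ideal `𝔔` of `𝓞 L` with residue cardinality `ℓ`:
`σ x ≡ x ^ ℓ mod 𝔔` for all integers `x` of `L`. -/
def IsFrob {K L : Type*} [Field K] [Field L] [Algebra K L]
    (σ : L ≃ₐ[K] L) (𝔔 : Ideal (𝓞 L)) (ℓ : ℕ) : Prop :=
  ∀ x : 𝓞 L, σ • x - x ^ ℓ ∈ 𝔔

section below

variable (K F : Type*) [Field K] [NumberField K] [Field F] [NumberField F] [Algebra K F]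

/-- The prime of `K` below a prime of `F`. -/
noncomputable def below (𝔓 : HeightOneSpectrum (𝓞 F)) : HeightOneSpectrum (𝓞 K) where
  asIdeal := 𝔓.asIdeal.under (𝓞 K)
  isPrime := Ideal.IsPrime.under (𝓞 K) 𝔓.asIdeal
  ne_bot := by
    haveI : 𝔓.asIdeal.IsPrime := 𝔓.isPrime
    exact Ideal.under_ne_bot (𝓞 K) 𝔓.ne_bot

@[simp] theorem below_asIdeal (𝔓 : HeightOneSpectrum (𝓞 F)) :
    (below K F 𝔓).asIdeal = 𝔓.asIdeal.under (𝓞 K) := rfl

/-- The good primes of degree one of `F` over the prime `𝔭` of `K`. -/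
def fiber (bad : Finset ℕ) (𝔭 : HeightOneSpectrum (𝓞 K)) : Set (HeightOneSpectrum (𝓞 F)) :=
  {𝔓 | 𝔓 ∈ P1 F bad ∧ below K F 𝔓 = 𝔭}

theorem mem_fiber {bad : Finset ℕ} {𝔭 : HeightOneSpectrum (𝓞 K)}
    {𝔓 : HeightOneSpectrum (𝓞 F)} :
    𝔓 ∈ fiber K F bad 𝔭 ↔ 𝔓 ∈ P1 F bad ∧ below K F 𝔓 = 𝔭 := Iff.rfl

end below

end Fermat.Agent.S29.CycCheb
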