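import Fermat.Agent.S29.CycCheb.Defs

/-!
# Weak cyclic Chebotarev, leaf (K2a): the prime below a prime of prime norm; existence of Frobenius

* `below_mem_P1`: the prime of `K` below a prime of `F` of prime norm `ℓ ∉ bad` has norm `ℓ`.
* `exists_isFrob`: for `L/K` Galois and a prime `𝔭` of `K` there are a prime `𝔔` of `L` over `𝔭`
  and `σ ∈ Gal(L/K)` with `σ x ≡ x ^ N𝔭 mod 𝔔`.
-/

set_option autoImplicit false

open NumberField IsDedekindDomain nonZeroDivisors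
open Fermat.Agent.S29.CycCheb.LogZeta

namespace Fermat.Agent.S29.CycCheb.FibreBelow

open Fermat.Agent.S29.CycCheb

theorem liesOver_below (K F : Type*) [Field K] [NumberField K] [Field F] [NumberField F]
    [Algebra K F] (𝔓 : HeightOneSpectrum (𝓞 F)) :
    𝔓.asIdeal.LiesOver (below K F 𝔓).asIdeal := ⟨rfl⟩

/-- the inertia degree of a prime of prime norm over the prime below is `1`, and the norms agree. -/
theorem absNorm_below_of_prime (K F : Type*) [Field K] [NumberField K] [Field F] [NumberField F]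
    [Algebra K F] {𝔓 : HeightOneSpectrum (𝓞 F)} (h : (Ideal.absNorm 𝔓.asIdeal).Prime) :
    (below K F 𝔓).asIdeal.inertiaDeg' 𝔓.asIdeal = 1 ∧
      Ideal.absNorm (below K F 𝔓).asIdeal = Ideal.absNorm 𝔓.asIdeal := by
  have := liesOver_below K F 𝔓
  have hpow := Ideal.absNorm_eq_pow_inertiaDeg'_of_liesOver 𝔓.asIdeal (below K F 𝔓).asIdeal
    (below K F 𝔓).isPrime (below K F 𝔓).ne_bot
  set f := (below K F 𝔓).asIdeal.inertiaDeg' 𝔓.asIdeal with hf
  have hf1 : f = 1 := by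
    rw [hpow] at h
    by_contra hne
    rcases Nat.lt_or_ge f 2 with h2 | h2
    · have hf0 : f = 0 := by omega
      rw [hf0, pow_zero] at h
      exact Nat.not_prime_one h
    · exact Nat.Prime.not_prime_pow h2 h
  refine ⟨hf1, ?_⟩
  rw [hpow, hf1, pow_one]

theorem below_mem_P1 (K F : Type*) [Field K] [NumberField K] [Field F] [NumberField F]
    [Algebra K F] {bad : Finset ℕ} {𝔓 : HeightOneSpectrum (𝓞 F)} (h : 𝔓 ∈ P1 F bad) :
    below K F 𝔓 ∈ P1 K bad ∧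
      Ideal.absNorm (below K F 𝔓).asIdeal = Ideal.absNorm 𝔓.asIdeal := by
  obtain ⟨-, h2⟩ := absNorm_below_of_prime K F h.1
  refine ⟨⟨?_, ?_⟩, h2⟩
  · rw [h2]; exact h.1
  · rw [h2]; exact h.2

theorem exists_isFrob {K L : Type*} [Field K] [NumberField K] [Field L] [NumberField L]
    [Algebra K L] [IsGalois K L] {bad : Finset ℕ} (_hbad : BadOK L bad)
    (𝔭 : HeightOneSpectrum (𝓞 K)) (_h𝔭 : 𝔭 ∈ P1 K bad) :
    ∃ (𝔔 : Ideal (𝓞 L)) (_ : 𝔔.IsPrime) (σ : L ≃ₐ[K] L),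
      𝔔.under (𝓞 K) = 𝔭.asIdeal ∧ IsFrob σ 𝔔 (Ideal.absNorm 𝔭.asIdeal) := by
  have := 𝔭.isPrime
  obtain ⟨⟨𝔔, h𝔔p, h𝔔o⟩⟩ := (inferInstance : Nonempty (𝔭.asIdeal.primesOver (𝓞 L)))
  have := h𝔔p
  have hunder : 𝔔.under (𝓞 K) = 𝔭.asIdeal := h𝔔o.over.symm
  have hne : 𝔔 ≠ ⊥ := by
    intro h0
    rw [h0, Ideal.under_bot] at hunder
    exact 𝔭.ne_bot hunder.symm
  have : Finite (𝓞 L ⧸ 𝔔) := Ring.HasFiniteQuotients.finiteQuotient hne
  have : IsGaloisGroup (L ≃ₐ[K] L) (𝓞 K) (𝓞 L) := IsGaloisGroup.of_isFractionRing _ _ _ K L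
  obtain ⟨σ, hσ⟩ := IsArithFrobAt.exists_of_isInvariant (𝓞 K) (L ≃ₐ[K] L) 𝔔
  refine ⟨𝔔, h𝔔p, σ, hunder, fun x => ?_⟩
  have := hσ x
  rw [hunder] at this
  have hcard : Nat.card (𝓞 K ⧸ 𝔭.asIdeal) = Ideal.absNorm 𝔭.asIdeal := by
    rw [Ideal.absNorm_apply, Submodule.cardQuot_apply]
  rw [hcard] at this
  exact this

end Fermat.Agent.S29.CycCheb.FibreBelow
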