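import Fermat.Agent.S29.CycCheb.Defs

/-!
# Weak cyclic Chebotarev, K2b (second half): the fibre is empty when the Frobenius is not in `H`
-/

set_option autoImplicit false

open NumberField IsDedekindDomain nonZeroDivisors
open Fermat.Agent.S29.CycCheb.LogZeta

namespace Fermat.Agent.S29.CycCheb.FibreEmpty

open Fermat.Agent.S29.CycCheb

section Unique

variable {L : Type*} [Field L] [NumberField L]

omit [NumberField L] in
/-- the rational prime under a prime of `𝓞 L` containing `ℓ` -/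
theorem under_int_eq_span {ℓ : ℕ} (hℓ : ℓ.Prime) (𝔔 : Ideal (𝓞 L)) [𝔔.IsPrime]
    (hmem : (ℓ : 𝓞 L) ∈ 𝔔) : 𝔔.under ℤ = Ideal.span {(ℓ : ℤ)} := by
  have hmax : (Ideal.span {(ℓ : ℤ)}).IsMaximal :=
    PrincipalIdealRing.isMaximal_of_irreducible
      (Nat.prime_iff_prime_int.mp hℓ).irreducible
  have hle : Ideal.span {(ℓ : ℤ)} ≤ 𝔔.under ℤ := by
    rw [Ideal.span_singleton_le_iff_mem, Ideal.mem_comap]
    simpa using hmem
  have hne : 𝔔.under ℤ ≠ ⊤ := (Ideal.IsPrime.under ℤ 𝔔).ne_top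
  exact (hmax.eq_of_le hne hle).symm

omit [NumberField L] in
theorem card_int_quot {ℓ : ℕ} (hℓ : ℓ.Prime) (𝔔 : Ideal (𝓞 L)) [𝔔.IsPrime]
    (hmem : (ℓ : 𝓞 L) ∈ 𝔔) : Nat.card (ℤ ⧸ 𝔔.under ℤ) = ℓ := by
  rw [under_int_eq_span hℓ 𝔔 hmem]
  rw [Nat.card_congr (Int.quotientSpanNatEquivZMod ℓ).toEquiv, Nat.card_zmod]

/-- **Uniqueness of the Frobenius at an unramified prime**, for ring endomorphisms of `𝓞 L`. -/
theorem ringHom_eq_of_frob {ℓ : ℕ} (hℓ : ℓ.Prime) (hdisc : ¬ (ℓ : ℤ) ∣ NumberField.discr L)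
    (𝔔 : Ideal (𝓞 L)) [𝔔.IsPrime] (hmem : (ℓ : 𝓞 L) ∈ 𝔔) (f g : 𝓞 L →+* 𝓞 L)
    (hf : ∀ x, f x - x ^ ℓ ∈ 𝔔) (hg : ∀ x, g x - x ^ ℓ ∈ 𝔔) : f = g := by
  have hunr : Algebra.IsUnramifiedAt ℤ 𝔔 :=
    (NumberField.not_dvd_discr_iff_forall_mem L (𝓞 L)
      (Nat.prime_iff_prime_int.mp hℓ)).mp hdisc 𝔔 inferInstance (by simpa using hmem)
  have hcard := card_int_quot hℓ 𝔔 hmem
  have Hf : (f.toIntAlgHom).IsArithFrobAt 𝔔 := by
    intro x; rw [hcard]; exact hf x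
  have Hg : (g.toIntAlgHom).IsArithFrobAt 𝔔 := by
    intro x; rw [hcard]; exact hg x
  have hQ : 𝔔.primeCompl ≤ (𝓞 L)⁰ := by
    intro x hx
    exact mem_nonZeroDivisors_of_ne_zero (fun h => hx (h ▸ 𝔔.zero_mem))
  have := Hf.eq_of_isUnramifiedAt Hg hQ
  refine RingHom.ext fun x => ?_
  exact congrArg (fun φ : 𝓞 L →ₐ[ℤ] 𝓞 L => (φ x : 𝓞 L)) this

end Unique

section Main

variable {K L : Type*} [Field K] [NumberField K] [Field L] [NumberField L] [Algebra K L]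
  [IsGalois K L]

open scoped Pointwise

/-- **K2b, second half.** If the Frobenius `σ` at a prime `𝔔` of `L` over the good prime `𝔭` of
degree one is not in `H`, no prime of degree one of the fixed field of `H` lies over `𝔭`. -/
theorem fiber_eq_empty_of_notMem (hcomm : ∀ a b : L ≃ₐ[K] L, a * b = b * a) {bad : Finset ℕ}
    (hbad : BadOK L bad) (H : Subgroup (L ≃ₐ[K] L)) (𝔭 : HeightOneSpectrum (𝓞 K))
    (h𝔭 : 𝔭 ∈ P1 K bad) (𝔔 : Ideal (𝓞 L)) [𝔔.IsPrime] (h𝔔 : 𝔔.under (𝓞 K) = 𝔭.asIdeal)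
    (σ : L ≃ₐ[K] L) (hσ : IsFrob σ 𝔔 (Ideal.absNorm 𝔭.asIdeal)) (hσH : σ ∉ H) :
    fiber K (IntermediateField.fixedField H) bad 𝔭 = ∅ := by
  rw [Set.eq_empty_iff_forall_notMem]
  rintro 𝔓 ⟨⟨hPprime, hPbad⟩, hbelow⟩
  apply hσH
  obtain ⟨hℓ, hℓbad⟩ := h𝔭
  set ℓ := Ideal.absNorm 𝔭.asIdeal with hℓdef
  have hdisc : ¬ (ℓ : ℤ) ∣ NumberField.discr L := fun h => hℓbad (hbad ℓ hℓ h)
  -- `ℓ ∈ 𝔭 ⊆ 𝔓`
  have hℓ𝔭 : (ℓ : 𝓞 K) ∈ 𝔭.asIdeal := Ideal.absNorm_mem _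
  have hunder : 𝔓.asIdeal.under (𝓞 K) = 𝔭.asIdeal := by
    have := congrArg HeightOneSpectrum.asIdeal hbelow
    simpa using this
  have hℓ𝔓 : (ℓ : 𝓞 (IntermediateField.fixedField H)) ∈ 𝔓.asIdeal := by
    have : (ℓ : 𝓞 K) ∈ 𝔓.asIdeal.under (𝓞 K) := hunder ▸ hℓ𝔭
    rw [Ideal.under, Ideal.mem_comap] at this
    simpa using this
  -- the norm of `𝔓` is `ℓ`
  have hq : Ideal.absNorm 𝔓.asIdeal = ℓ := by
    by_contra hne
    have hcop : Nat.Coprime (Ideal.absNorm 𝔓.asIdeal) ℓ :=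
      (Nat.coprime_primes hPprime hℓ).mpr hne
    have hq𝔓 : ((Ideal.absNorm 𝔓.asIdeal : ℕ) : 𝓞 (IntermediateField.fixedField H)) ∈ 𝔓.asIdeal :=
      Ideal.absNorm_mem _
    have h1 : (1 : 𝓞 (IntermediateField.fixedField H)) ∈ 𝔓.asIdeal := by
      have hb := Nat.Coprime.isCoprime hcop
      obtain ⟨a, b, hab⟩ := hb
      have : ((a * (Ideal.absNorm 𝔓.asIdeal : ℤ) + b * (ℓ : ℤ) : ℤ) :
          𝓞 (IntermediateField.fixedField H)) = 1 := by rw [hab]; simp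
      rw [← this]
      push_cast
      exact 𝔓.asIdeal.add_mem (𝔓.asIdeal.mul_mem_left _ hq𝔓) (𝔓.asIdeal.mul_mem_left _ hℓ𝔓)
    exact 𝔓.isPrime.ne_top ((Ideal.eq_top_iff_one _).mpr h1)
  -- a prime of `L` over `𝔓`
  have : 𝔓.asIdeal.IsPrime := 𝔓.isPrime
  obtain ⟨𝔔', -, h𝔔'prime, h𝔔'over⟩ :=
    Ideal.exists_ideal_over_prime_of_isIntegral (S := 𝓞 L) 𝔓.asIdeal (⊥ : Ideal (𝓞 L))
      (by simp [Ideal.comap_bot_of_injective _ (FaithfulSMul.algebraMap_injective _ _)])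
  have := h𝔔'prime
  -- `𝔔'` lies over `𝔭`
  have h𝔔'K : 𝔔'.under (𝓞 K) = 𝔭.asIdeal := by
    rw [← hunder, ← h𝔔'over]
    ext x
    simp only [Ideal.under, Ideal.mem_comap]
    rw [IsScalarTower.algebraMap_apply (𝓞 K) (𝓞 (IntermediateField.fixedField H)) (𝓞 L)]
  -- transitivity: `𝔔' = τ • 𝔔`
  obtain ⟨τ, hτ⟩ := Algebra.IsInvariant.exists_smul_of_under_eq (𝓞 K) (𝓞 L) (L ≃ₐ[K] L) 𝔔 𝔔'
    (h𝔔.trans h𝔔'K.symm)
  -- `σ` is a Frobenius at `𝔔'`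
  have hσ' : ∀ x : 𝓞 L, σ • x - x ^ ℓ ∈ 𝔔' := by
    intro x
    rw [hτ, Ideal.mem_pointwise_smul_iff_inv_smul_mem]
    have h1 := hσ (τ⁻¹ • x)
    have h2 : τ⁻¹ • (σ • x - x ^ ℓ) = σ • (τ⁻¹ • x) - (τ⁻¹ • x) ^ ℓ := by
      rw [smul_sub, smul_pow', ← mul_smul, ← mul_smul, hcomm τ⁻¹ σ]
    rw [h2]; exact h1
  -- a Frobenius of `Gal(L/F)` at `𝔔'`
  have hℓ𝔔' : (ℓ : 𝓞 L) ∈ 𝔔' := by
    have : (ℓ : 𝓞 K) ∈ 𝔔'.under (𝓞 K) := h𝔔'K ▸ hℓ𝔭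
    rw [Ideal.under, Ideal.mem_comap] at this
    simpa using this
  have : Finite (𝓞 L ⧸ 𝔔') := by
    have hne : 𝔔' ≠ ⊥ := by
      intro h0
      have := hℓ𝔔'
      rw [h0, Ideal.mem_bot] at this
      exact hℓ.ne_zero (by exact_mod_cast this)
    exact Ideal.finiteQuotientOfFreeOfNeBot 𝔔' hne
  obtain ⟨σH, hσH'⟩ := IsArithFrobAt.exists_of_isInvariant
    (𝓞 (IntermediateField.fixedField H)) (L ≃ₐ[IntermediateField.fixedField H] L) 𝔔'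
  have hcardF : Nat.card (𝓞 (IntermediateField.fixedField H) ⧸
      𝔔'.under (𝓞 (IntermediateField.fixedField H))) = ℓ := by
    have : 𝔔'.under (𝓞 (IntermediateField.fixedField H)) = 𝔓.asIdeal := h𝔔'over
    rw [this, ← hq]
    rfl
  -- compare the two Frobenii as ring endomorphisms of `𝓞 L`
  have hfg := ringHom_eq_of_frob hℓ hdisc 𝔔' hℓ𝔔'
    (MulSemiringAction.toRingHom (L ≃ₐ[K] L) (𝓞 L) σ)
    (MulSemiringAction.toRingHom (L ≃ₐ[IntermediateField.fixedField H] L) (𝓞 L) σH)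
    (fun x => hσ' x) (fun x => by
      have := hσH' x
      rw [hcardF] at this
      exact this)
  have hagree : ∀ y : L, σ y = σH y := by
    intro y
    obtain ⟨x, d, hd, rfl⟩ := IsFractionRing.div_surjective (A := 𝓞 L) y
    have hx := congrArg (fun φ : 𝓞 L →+* 𝓞 L => ((φ x : 𝓞 L) : L)) hfg
    have hd' := congrArg (fun φ : 𝓞 L →+* 𝓞 L => ((φ d : 𝓞 L) : L)) hfg
    simp only [MulSemiringAction.toRingHom_apply] at hx hd'
    rw [map_div₀, map_div₀]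
    exact congrArg₂ (· / ·) hx hd'
  rw [← IntermediateField.fixingSubgroup_fixedField H, IntermediateField.mem_fixingSubgroup_iff]
  intro y hy
  rw [hagree y]
  exact σH.commutes ⟨y, hy⟩

end Main

end Fermat.Agent.S29.CycCheb.FibreEmpty
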