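import Fermat.Agent.S29.CycCheb.LogZeta

/-!
# Fibrewise `log`-Euler sums and the divisor induction (analytic half of leaf (K3))

* `lsum_fibre`: if every prime of `S ⊆ Spec 𝓞 K` has exactly `m` primes of `S' ⊆ Spec 𝓞 K'` of the
  same norm above it (w.r.t. an arbitrary map `π`), and `π` maps `S'` into `S`, then
  `lsum K' S' s = m * lsum K S s`.
* `lsum_biUnion`: additivity over finite disjoint unions.
* `divisor_induction`: Möbius inversion over the divisors of `n` by strong induction with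
  `Nat.sum_totient`.
* `nonempty_of_bound`, `infinite_of_bound`: a set of primes whose `log`-Euler sum is
  `-c log (s-1) + O(1)` with `c > 0` is nonempty (infinite).
* `exists_ord_eq`: the abstract form of Frobenius' density theorem for a cyclic extension.
-/

set_option autoImplicit false
set_option linter.unusedSectionVars false

open NumberField IsDedekindDomain nonZeroDivisors Filter Topology

namespace Fermat.Agent.S29.CycCheb.FibreSum

open Fermat.Agent.S14.EulerIdeal Fermat.Agent.S14.ZetaIdeal Fermat.Agent.S14.LClass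
  Fermat.Agent.S14.DensityCore Fermat.Agent.S29.CycCheb.LogZeta

section Fibre

variable (K : Type*) [Field K] [NumberField K] (K' : Type*) [Field K'] [NumberField K']

theorem hasSum_lsum {s : ℝ} (hs : 1 < s) (S : Set (HeightOneSpectrum (𝓞 K))) :
    HasSum (S.indicator (lfac K s)) (lsum K S s) :=
  (summable_indicator_lfac K hs S).hasSum

/-- **fibrewise summation.** -/
theorem lsum_fibre {s : ℝ} (hs : 1 < s)
    (π : HeightOneSpectrum (𝓞 K') → HeightOneSpectrum (𝓞 K))
    (S : Set (HeightOneSpectrum (𝓞 K))) (S' : Set (HeightOneSpectrum (𝓞 K'))) (m : ℕ)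
    (h1 : ∀ P ∈ S', π P ∈ S ∧ Ideal.absNorm P.asIdeal = Ideal.absNorm (π P).asIdeal)
    (h2 : ∀ Q ∈ S, {P | P ∈ S' ∧ π P = Q}.ncard = m) :
    lsum K' S' s = m * lsum K S s := by
  have hf := (hasSum_lsum K' hs S').tsum_fiberwise π
  have hg : HasSum (S.indicator (fun Q => (m : ℝ) * lfac K s Q)) ((m : ℝ) * lsum K S s) := by
    have := (hasSum_lsum K hs S).mul_left (m : ℝ)
    refine this.congr_fun ?_
    intro Q
    by_cases hQ : Q ∈ S <;> simp [Set.indicator, hQ]
  refine HasSum.unique (hf.congr_fun ?_) hg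
  intro Q
  rw [tsum_subtype (π ⁻¹' {Q}) (S'.indicator (lfac K' s)), Set.indicator_indicator]
  by_cases hQ : Q ∈ S
  · rw [Set.indicator_of_mem hQ]
    have hset : π ⁻¹' {Q} ∩ S' = {P | P ∈ S' ∧ π P = Q} := by
      ext P
      simp only [Set.mem_inter_iff, Set.mem_preimage, Set.mem_singleton_iff, Set.mem_ofPred_eq]
      exact and_comm
    rw [hset]
    have hind : ({P | P ∈ S' ∧ π P = Q} : Set (HeightOneSpectrum (𝓞 K'))).indicator (lfac K' s) =
        ({P | P ∈ S' ∧ π P = Q} : Set (HeightOneSpectrum (𝓞 K'))).indicator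
          (fun _ => lfac K s Q) := by
      ext P
      by_cases hP : P ∈ {P | P ∈ S' ∧ π P = Q}
      · rw [Set.indicator_of_mem hP, Set.indicator_of_mem hP]
        have h := (h1 P hP.1).2
        rw [hP.2] at h
        exact lfac_congr K s h
      · rw [Set.indicator_of_notMem hP, Set.indicator_of_notMem hP]
    rw [hind, ← tsum_subtype, tsum_const, Nat.card_coe_set_eq, h2 Q hQ, nsmul_eq_mul]
  · rw [Set.indicator_of_notMem hQ]
    have hset : π ⁻¹' {Q} ∩ S' = ∅ := by
      ext P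
      simp only [Set.mem_inter_iff, Set.mem_preimage, Set.mem_singleton_iff, Set.mem_empty_iff_false,
        iff_false, not_and]
      intro hP hP'
      exact hQ (hP ▸ (h1 P hP').1)
    rw [hset, Set.indicator_empty]
    exact tsum_zero.symm

end Fibre

section Partition

variable (K : Type*) [Field K] [NumberField K]

/-- additivity over finite disjoint unions. -/
theorem lsum_biUnion {s : ℝ} (hs : 1 < s) {ι : Type*} (I : Finset ι)
    (S : ι → Set (HeightOneSpectrum (𝓞 K))) (hd : (I : Set ι).PairwiseDisjoint S) :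
    lsum K (⋃ i ∈ I, S i) s = ∑ i ∈ I, lsum K (S i) s := by
  unfold lsum
  rw [Finset.indicator_biUnion I S hd]
  exact Summable.tsum_finsetSum fun i _ => summable_indicator_lfac K hs (S i)

theorem lsum_empty (s : ℝ) : lsum K ∅ s = 0 := by
  unfold lsum
  rw [Set.indicator_empty]
  exact tsum_zero

theorem lsum_le_of_finite {s : ℝ} (hs : 1 < s) {S : Set (HeightOneSpectrum (𝓞 K))}
    (hS : S.Finite) : lsum K S s ≤ hS.toFinset.card * Real.log 2 := by
  classical
  refine lsum_le_of_finset K hs S fun T hT => ?_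
  have hsub : T ⊆ hS.toFinset := fun Q hQ => hS.mem_toFinset.mpr (hT Q hQ)
  calc ∑ Q ∈ T, lfac K s Q ≤ ∑ Q ∈ hS.toFinset, lfac K s Q :=
        Finset.sum_le_sum_of_subset_of_nonneg hsub fun Q _ _ => lfac_nonneg K hs Q
    _ ≤ ∑ _Q ∈ hS.toFinset, Real.log 2 :=
        Finset.sum_le_sum fun Q _ => lfac_le_log_two K hs Q
    _ = hS.toFinset.card * Real.log 2 := by rw [Finset.sum_const, nsmul_eq_mul]

end Partition

section Endgame

/-- `c * log (s - 1)` is not bounded below near `1+` for `c > 0`. -/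
theorem not_bounded_log {c : ℝ} (hc : 0 < c) (B : ℝ) :
    ¬ ∀ᶠ s in 𝓝[>] (1:ℝ), -B ≤ c * Real.log (s - 1) := by
  intro h
  have h1 : Tendsto (fun s : ℝ => s - 1) (𝓝[>] (1:ℝ)) (𝓝[>] (0:ℝ)) := by
    refine tendsto_nhdsWithin_of_tendsto_nhds_of_eventually_within _ ?_ ?_
    · have : Tendsto (fun s : ℝ => s - 1) (𝓝 (1:ℝ)) (𝓝 ((1:ℝ) - 1)) :=
        (continuous_id.sub continuous_const).tendsto 1
      rw [sub_self] at this
      exact this.mono_left nhdsWithin_le_nhds
    · filter_upwards [self_mem_nhdsWithin] with s hs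
      exact sub_pos.mpr (Set.mem_Ioi.mp hs)
  have h2 : Tendsto (fun s : ℝ => Real.log (s - 1)) (𝓝[>] (1:ℝ)) atBot :=
    Real.tendsto_log_nhdsGT_zero.comp h1
  have h3 : Tendsto (fun s : ℝ => c * Real.log (s - 1)) (𝓝[>] (1:ℝ)) atBot :=
    h2.const_mul_atBot hc
  have h4 : ∀ᶠ s in 𝓝[>] (1:ℝ), c * Real.log (s - 1) < -B := h3.eventually_lt_atBot (-B)
  obtain ⟨s, hs1, hs2⟩ := (h.and h4).exists
  linarith

variable (K : Type*) [Field K] [NumberField K]

/-- a set of primes with `lsum = -c log (s-1) + O(1)`, `c > 0`, is infinite. -/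
theorem infinite_of_bound {S : Set (HeightOneSpectrum (𝓞 K))} {c : ℝ} (hc : 0 < c)
    (h : ∃ B : ℝ, ∀ᶠ s in 𝓝[>] (1:ℝ), |lsum K S s + c * Real.log (s - 1)| ≤ B) : S.Infinite := by
  intro hfin
  obtain ⟨B, hB⟩ := h
  refine not_bounded_log hc (B + hfin.toFinset.card * Real.log 2) ?_
  filter_upwards [hB, self_mem_nhdsWithin] with s hs hs1
  have hs1' : (1:ℝ) < s := hs1
  have h1 := lsum_le_of_finite K hs1' hfin
  rw [abs_le] at hs
  linarith [hs.1]

theorem nonempty_of_bound {S : Set (HeightOneSpectrum (𝓞 K))} {c : ℝ} (hc : 0 < c)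
    (h : ∃ B : ℝ, ∀ᶠ s in 𝓝[>] (1:ℝ), |lsum K S s + c * Real.log (s - 1)| ≤ B) : S.Nonempty :=
  (infinite_of_bound K hc h).nonempty

/-- **Möbius inversion over the divisors of `n`**, in the `O(1)` calculus. -/
theorem divisor_induction (n : ℕ) (hn : n ≠ 0) (f : ℕ → ℝ → ℝ) (u : ℝ → ℝ)
    (H : ∀ d ∈ n.divisors, ∃ B : ℝ, ∀ᶠ s in 𝓝[>] (1:ℝ),
      |∑ d' ∈ d.divisors, f d' s + (d : ℝ) / n * u s| ≤ B) :
    ∀ d ∈ n.divisors, ∃ B : ℝ, ∀ᶠ s in 𝓝[>] (1:ℝ),
      |f d s + (Nat.totient d : ℝ) / n * u s| ≤ B := by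
  intro d
  induction d using Nat.strong_induction_on with
  | _ d ih =>
    intro hd
    have hd0 : d ≠ 0 := (Nat.pos_of_mem_divisors hd).ne'
    have hdn : d ∣ n := Nat.dvd_of_mem_divisors hd
    have ih' : ∀ d' ∈ d.properDivisors, ∃ B : ℝ, ∀ᶠ s in 𝓝[>] (1:ℝ),
        |f d' s + (Nat.totient d' : ℝ) / n * u s| ≤ B := by
      intro d' hd'
      have h1 := Nat.mem_properDivisors.mp hd'
      exact ih d' h1.2 (Nat.mem_divisors.mpr ⟨h1.1.trans hdn, hn⟩)
    choose! B hB using ih'
    obtain ⟨B0, hB0⟩ := H d hd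
    refine ⟨B0 + ∑ d' ∈ d.properDivisors, B d', ?_⟩
    have hall : ∀ᶠ s in 𝓝[>] (1:ℝ), ∀ d' ∈ d.properDivisors,
        |f d' s + (Nat.totient d' : ℝ) / n * u s| ≤ B d' :=
      (Filter.eventually_all_finset _).mpr hB
    filter_upwards [hB0, hall] with s hs0 hs
    have hsplit : ∑ d' ∈ d.divisors, f d' s = f d s + ∑ d' ∈ d.properDivisors, f d' s := by
      rw [← Nat.cons_self_properDivisors hd0, Finset.sum_cons]
    have htot : (d : ℝ) = Nat.totient d + ∑ d' ∈ d.properDivisors, (Nat.totient d' : ℝ) := by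
      have h := Nat.sum_totient d
      rw [← Nat.cons_self_properDivisors hd0, Finset.sum_cons] at h
      have h' : ((Nat.totient d + ∑ d' ∈ d.properDivisors, Nat.totient d' : ℕ) : ℝ) = d := by
        rw [h]
      push_cast at h'
      exact h'.symm
    have hkey : f d s + (Nat.totient d : ℝ) / n * u s =
        (∑ d' ∈ d.divisors, f d' s + (d : ℝ) / n * u s) -
          ∑ d' ∈ d.properDivisors, (f d' s + (Nat.totient d' : ℝ) / n * u s) := by
      rw [hsplit, Finset.sum_add_distrib, ← Finset.sum_mul, ← Finset.sum_div]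
      rw [htot]
      ring
    rw [hkey]
    calc |(∑ d' ∈ d.divisors, f d' s + (d : ℝ) / n * u s) -
          ∑ d' ∈ d.properDivisors, (f d' s + (Nat.totient d' : ℝ) / n * u s)|
        ≤ |∑ d' ∈ d.divisors, f d' s + (d : ℝ) / n * u s| +
          |∑ d' ∈ d.properDivisors, (f d' s + (Nat.totient d' : ℝ) / n * u s)| := abs_sub _ _
      _ ≤ B0 + ∑ d' ∈ d.properDivisors, B d' := by
          refine add_le_add hs0 ((Finset.abs_sum_le_sum_abs _ _).trans ?_)
          exact Finset.sum_le_sum hs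

end Endgame

section Abstract

variable (E : Type*) [Field E] [NumberField E]

/-- the primes of `P1 E bad` of "order" `d`. -/
def ordSet (bad : Finset ℕ) (ord : HeightOneSpectrum (𝓞 E) → ℕ) (d : ℕ) :
    Set (HeightOneSpectrum (𝓞 E)) := {Q | Q ∈ P1 E bad ∧ ord Q = d}

/-- the primes of `P1 E bad` of "order" dividing `d`. -/
def dvdSet (bad : Finset ℕ) (ord : HeightOneSpectrum (𝓞 E) → ℕ) (d : ℕ) :
    Set (HeightOneSpectrum (𝓞 E)) := {Q | Q ∈ P1 E bad ∧ ord Q ∣ d}

theorem dvdSet_eq_biUnion (bad : Finset ℕ) (ord : HeightOneSpectrum (𝓞 E) → ℕ) {d : ℕ}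
    (hd : d ≠ 0) : dvdSet E bad ord d = ⋃ d' ∈ d.divisors, ordSet E bad ord d' := by
  ext Q
  simp only [dvdSet, ordSet, Set.mem_ofPred_eq, Set.mem_iUnion, exists_prop, Nat.mem_divisors]
  constructor
  · rintro ⟨h1, h2⟩
    exact ⟨ord Q, ⟨h2, hd⟩, h1, rfl⟩
  · rintro ⟨d', ⟨h2, -⟩, h1, rfl⟩
    exact ⟨h1, h2⟩

theorem pairwiseDisjoint_ordSet (bad : Finset ℕ) (ord : HeightOneSpectrum (𝓞 E) → ℕ)
    (I : Finset ℕ) : (I : Set ℕ).PairwiseDisjoint (ordSet E bad ord) := by
  intro a _ b _ hab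
  rw [Function.onFun, Set.disjoint_left]
  rintro Q ⟨-, h1⟩ ⟨-, h2⟩
  exact hab (h1.symm.trans h2)

/-- **Frobenius' density theorem for a cyclic extension, abstract analytic form.**
`E` a number field, `ord` a function on the primes of `E` with values dividing `n` (the order of
the Frobenius in a cyclic group of order `n`); for every `d ∣ n` a number field `Kd d` (the fixed
field of the subgroup of order `d`) with a map `π d` to the primes of `E` such that the primes of
prime norm of `Kd d` lie over primes with `ord ∣ d`, have the same norm, and every prime of `E` of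
prime norm with `ord ∣ d` has exactly `n / d` such primes above it. Then infinitely many primes
of `E` of prime norm (outside `bad`) have `ord = n`. -/
theorem exists_ord_eq (bad : Finset ℕ) (n : ℕ) (hn : n ≠ 0)
    (ord : HeightOneSpectrum (𝓞 E) → ℕ)
    (Kd : ℕ → Type*) [∀ d, Field (Kd d)] [∀ d, NumberField (Kd d)]
    (π : ∀ d, HeightOneSpectrum (𝓞 (Kd d)) → HeightOneSpectrum (𝓞 E))
    (h1 : ∀ d ∈ n.divisors, ∀ P ∈ P1 (Kd d) bad,
      ord (π d P) ∣ d ∧ Ideal.absNorm P.asIdeal = Ideal.absNorm (π d P).asIdeal)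
    (h2 : ∀ d ∈ n.divisors, ∀ Q ∈ P1 E bad, ord Q ∣ d →
      {P | P ∈ P1 (Kd d) bad ∧ π d P = Q}.ncard = n / d) :
    {Q | Q ∈ P1 E bad ∧ ord Q = n}.Infinite := by
  have hnpos : (0 : ℝ) < n := by exact_mod_cast Nat.pos_of_ne_zero hn
  -- the basic estimate for every divisor
  have H : ∀ d ∈ n.divisors, ∃ B : ℝ, ∀ᶠ s in 𝓝[>] (1:ℝ),
      |∑ d' ∈ d.divisors, lsum E (ordSet E bad ord d') s + (d : ℝ) / n * Real.log (s - 1)| ≤ B := by
    intro d hd
    have hd0 : d ≠ 0 := (Nat.pos_of_mem_divisors hd).ne'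
    have hdn : d ∣ n := Nat.dvd_of_mem_divisors hd
    have hdpos : (0 : ℝ) < d := by exact_mod_cast Nat.pos_of_ne_zero hd0
    obtain ⟨B, hB⟩ := Lam_bound (Kd d) bad
    refine ⟨(d : ℝ) / n * B, ?_⟩
    filter_upwards [hB, self_mem_nhdsWithin] with s hs hs1
    have hs1' : (1:ℝ) < s := hs1
    have hfib : lsum (Kd d) (P1 (Kd d) bad) s = ((n / d : ℕ) : ℝ) * lsum E (dvdSet E bad ord d) s := by
      refine lsum_fibre E (Kd d) hs1' (π d) (dvdSet E bad ord d) (P1 (Kd d) bad) (n / d) ?_ ?_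
      · intro P hP
        obtain ⟨ha, hb⟩ := h1 d hd P hP
        refine ⟨⟨⟨?_, ?_⟩, ha⟩, hb⟩
        · rw [← hb]; exact hP.1
        · rw [← hb]; exact hP.2
      · intro Q hQ
        have := h2 d hd Q hQ.1 hQ.2
        convert this using 2
    have hcast : ((n / d : ℕ) : ℝ) = (n : ℝ) / d := Nat.cast_div hdn hdpos.ne'
    have hsum : lsum E (dvdSet E bad ord d) s = ∑ d' ∈ d.divisors, lsum E (ordSet E bad ord d') s := by
      rw [dvdSet_eq_biUnion E bad ord hd0]
      exact lsum_biUnion E hs1' _ _ (pairwiseDisjoint_ordSet E bad ord _)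
    have hLam : Lam (Kd d) bad s = (n : ℝ) / d * ∑ d' ∈ d.divisors, lsum E (ordSet E bad ord d') s := by
      unfold Lam
      rw [hfib, hcast, hsum]
    rw [hLam] at hs
    have hfac : ∑ d' ∈ d.divisors, lsum E (ordSet E bad ord d') s + (d : ℝ) / n * Real.log (s - 1) =
        (d : ℝ) / n * ((n : ℝ) / d * ∑ d' ∈ d.divisors, lsum E (ordSet E bad ord d') s +
          Real.log (s - 1)) := by
      field_simp
    rw [hfac, abs_mul, abs_of_pos (div_pos hdpos hnpos)]
    exact mul_le_mul_of_nonneg_left hs (div_pos hdpos hnpos).le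
  have hfin := divisor_induction n hn (fun d s => lsum E (ordSet E bad ord d) s)
    (fun s => Real.log (s - 1)) H n (Nat.mem_divisors_self n hn)
  have hc : (0 : ℝ) < (Nat.totient n : ℝ) / n :=
    div_pos (by exact_mod_cast Nat.totient_pos.mpr (Nat.pos_of_ne_zero hn)) hnpos
  exact infinite_of_bound E hc hfin

end Abstract

end Fermat.Agent.S29.CycCheb.FibreSum
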