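import Fermat.Agent.S29.CycCheb.Defs

/-!
# Weak cyclic Chebotarev: uniqueness of the arithmetic Frobenius at an unramified prime

`frob_unique`: for a number field `L`, a rational prime `ℓ ∤ discr L` and a prime `𝔔` of `𝓞 L`
over `ℓ`, two elements of `Gal(L/ℚ)` with `σ x ≡ x ^ ℓ mod 𝔔` on `𝓞 L` coincide.
-/

set_option autoImplicit false

open NumberField nonZeroDivisors

namespace Fermat.Agent.S29.CycCheb.FrobUnique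

/-- the prime of `ℤ` under a prime of `𝓞 L` containing `ℓ` is `(ℓ)`. -/
theorem under_int_eq_span {L : Type*} [Field L] [NumberField L] {ℓ : ℕ} (hℓ : ℓ.Prime)
    (𝔔 : Ideal (𝓞 L)) [h𝔔 : 𝔔.IsPrime] (hℓ𝔔 : (ℓ : 𝓞 L) ∈ 𝔔) :
    𝔔.under ℤ = Ideal.span {(ℓ : ℤ)} := by
  have : Fact ℓ.Prime := ⟨hℓ⟩
  have hle : Ideal.span {(ℓ : ℤ)} ≤ 𝔔.under ℤ := by
    rw [Ideal.span_singleton_le_iff_mem, Ideal.under_def, Ideal.mem_comap]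
    simpa using hℓ𝔔
  have hmax : (Ideal.span {(ℓ : ℤ)}).IsMaximal := Int.ideal_span_isMaximal_of_prime ℓ
  have hne : 𝔔.under ℤ ≠ ⊤ := (Ideal.IsPrime.under ℤ 𝔔).ne_top
  exact (hmax.eq_of_le hne hle).symm

theorem card_quot_under_int {L : Type*} [Field L] [NumberField L] {ℓ : ℕ} (hℓ : ℓ.Prime)
    (𝔔 : Ideal (𝓞 L)) [𝔔.IsPrime] (hℓ𝔔 : (ℓ : 𝓞 L) ∈ 𝔔) :
    Nat.card (ℤ ⧸ 𝔔.under ℤ) = ℓ := by
  rw [under_int_eq_span hℓ 𝔔 hℓ𝔔, Int.card_ideal_quot]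

/-- `σ x ≡ x ^ ℓ mod 𝔔` on `𝓞 L` says that `σ` is an arithmetic Frobenius at `𝔔` over `ℤ`. -/
theorem isArithFrobAt_int {L : Type*} [Field L] [NumberField L] {ℓ : ℕ} (hℓ : ℓ.Prime)
    (𝔔 : Ideal (𝓞 L)) [𝔔.IsPrime] (hℓ𝔔 : (ℓ : 𝓞 L) ∈ 𝔔) (σ : L ≃ₐ[ℚ] L)
    (hσ : ∀ x : 𝓞 L, σ • x - x ^ ℓ ∈ 𝔔) : IsArithFrobAt ℤ σ 𝔔 := by
  intro x
  rw [card_quot_under_int hℓ 𝔔 hℓ𝔔]
  exact hσ x

theorem smul_eq_of_frob {L : Type*} [Field L] [NumberField L] {ℓ : ℕ} (hℓ : ℓ.Prime)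
    (hdisc : ¬ (ℓ : ℤ) ∣ NumberField.discr L) (𝔔 : Ideal (𝓞 L)) [𝔔.IsPrime]
    (hℓ𝔔 : (ℓ : 𝓞 L) ∈ 𝔔) (σ τ : L ≃ₐ[ℚ] L) (hσ : ∀ x : 𝓞 L, σ • x - x ^ ℓ ∈ 𝔔)
    (hτ : ∀ x : 𝓞 L, τ • x - x ^ ℓ ∈ 𝔔) (x : 𝓞 L) : σ • x = τ • x := by
  have hp : Prime (ℓ : ℤ) := Nat.prime_iff_prime_int.mp hℓ
  have hunr : Algebra.IsUnramifiedAt ℤ 𝔔 := by
    refine (NumberField.not_dvd_discr_iff_forall_mem L (𝓞 L) hp).mp hdisc 𝔔 inferInstance ?_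
    simpa using hℓ𝔔
  have hQ : 𝔔.primeCompl ≤ (𝓞 L)⁰ := by
    intro y hy
    refine mem_nonZeroDivisors_of_ne_zero ?_
    rintro rfl
    exact hy 𝔔.zero_mem
  have h1 := isArithFrobAt_int hℓ 𝔔 hℓ𝔔 σ hσ
  have h2 := isArithFrobAt_int hℓ 𝔔 hℓ𝔔 τ hτ
  have heq := AlgHom.IsArithFrobAt.eq_of_isUnramifiedAt h1 h2 hQ
  exact DFunLike.congr_fun heq x

/-- **uniqueness of the arithmetic Frobenius** at a prime over `ℓ ∤ discr L`. -/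
theorem frob_unique {L : Type*} [Field L] [NumberField L] {ℓ : ℕ} (hℓ : ℓ.Prime)
    (hdisc : ¬ (ℓ : ℤ) ∣ NumberField.discr L) (𝔔 : Ideal (𝓞 L)) [𝔔.IsPrime]
    (hℓ𝔔 : (ℓ : 𝓞 L) ∈ 𝔔) (σ τ : L ≃ₐ[ℚ] L) (hσ : ∀ x : 𝓞 L, σ • x - x ^ ℓ ∈ 𝔔)
    (hτ : ∀ x : 𝓞 L, τ • x - x ^ ℓ ∈ 𝔔) : σ = τ := by
  have key := smul_eq_of_frob hℓ hdisc 𝔔 hℓ𝔔 σ τ hσ hτ
  ext x
  obtain ⟨a, b, hb, rfl⟩ := IsFractionRing.div_surjective (A := 𝓞 L) x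
  have ha' : σ (algebraMap (𝓞 L) L a) = τ (algebraMap (𝓞 L) L a) := by
    have := congrArg (algebraMap (𝓞 L) L) (key a)
    simpa [algebraMap.smul'] using this
  have hb' : σ (algebraMap (𝓞 L) L b) = τ (algebraMap (𝓞 L) L b) := by
    have := congrArg (algebraMap (𝓞 L) L) (key b)
    simpa [algebraMap.smul'] using this
  rw [map_div₀, map_div₀, ha', hb']

end Fermat.Agent.S29.CycCheb.FrobUnique
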