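import Fermat.Agent.S14.DensityCore
import Fermat.Agent.S14.DegTwo

/-!
# `log ζ_K(s)` over the primes of prime norm  (leaf (K1) of the weak cyclic Chebotarev chain)

For a number field `K` and a finite set `bad` of rational primes, the sum of the logarithms of the
Euler factors over the primes of `K` of prime norm `ℓ ∉ bad` equals `-log (s - 1) + O(1)` as
`s → 1+`.
-/

set_option autoImplicit false
set_option linter.unusedSectionVars false

open NumberField IsDedekindDomain nonZeroDivisors Filter Topology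

namespace Fermat.Agent.S29.CycCheb.LogZeta

open Fermat.Agent.S14.EulerIdeal Fermat.Agent.S14.ZetaIdeal Fermat.Agent.S14.LClass
  Fermat.Agent.S14.DensityCore

variable (K : Type*) [Field K] [NumberField K]

/-- primes of prime norm outside `bad`. -/
def P1 (bad : Finset ℕ) : Set (HeightOneSpectrum (𝓞 K)) :=
  {Q | (Ideal.absNorm Q.asIdeal).Prime ∧ Ideal.absNorm Q.asIdeal ∉ bad}

/-- logarithm of the Euler factor. -/
noncomputable def lfac (s : ℝ) (Q : HeightOneSpectrum (𝓞 K)) : ℝ := Real.log (fac K s Q)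

theorem fac_pos {s : ℝ} (hs : 1 < s) (Q : HeightOneSpectrum (𝓞 K)) : 0 < fac K s Q :=
  lt_of_lt_of_le zero_lt_one (one_le_fac K hs Q)

theorem lfac_nonneg {s : ℝ} (hs : 1 < s) (Q : HeightOneSpectrum (𝓞 K)) : 0 ≤ lfac K s Q :=
  Real.log_nonneg (one_le_fac K hs Q)

theorem lfac_congr {K' : Type*} [Field K'] [NumberField K'] (s : ℝ)
    {Q : HeightOneSpectrum (𝓞 K)} {P : HeightOneSpectrum (𝓞 K')}
    (h : Ideal.absNorm P.asIdeal = Ideal.absNorm Q.asIdeal) : lfac K' s P = lfac K s Q := by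
  unfold lfac
  rw [fac_congr K s h]

theorem lfac_le_two_mul {s : ℝ} (hs : 1 < s) (Q : HeightOneSpectrum (𝓞 K)) :
    lfac K s Q ≤ 2 * normPow K s (primeNZ Q) := by
  have hx0 := normPow_pos K s (primeNZ Q)
  have hx1 := normPow_prime_le_half K hs.le Q
  have hpos : 0 < 1 - normPow K s (primeNZ Q) := by linarith
  have h1 : lfac K s Q ≤ fac K s Q - 1 := Real.log_le_sub_one_of_pos (fac_pos K hs Q)
  refine h1.trans ?_
  unfold fac
  rw [sub_le_iff_le_add, inv_le_iff_one_le_mul₀ hpos]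
  nlinarith

theorem lfac_le_log_two {s : ℝ} (hs : 1 < s) (Q : HeightOneSpectrum (𝓞 K)) :
    lfac K s Q ≤ Real.log 2 :=
  Real.log_le_log (fac_pos K hs Q) (fac_le_two K hs.le Q)

theorem primeNZ_injective :
    Function.Injective (primeNZ : HeightOneSpectrum (𝓞 K) → (Ideal (𝓞 K))⁰) := by
  intro P Q h
  exact HeightOneSpectrum.ext (congrArg Subtype.val h)

theorem summable_lfac {s : ℝ} (hs : 1 < s) : Summable (lfac K s) := by
  have h1 : Summable fun Q : HeightOneSpectrum (𝓞 K) => 2 * normPow K s (primeNZ Q) :=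
    ((summable_normPow K hs).comp_injective (primeNZ_injective K)).mul_left 2
  exact Summable.of_nonneg_of_le (lfac_nonneg K hs) (lfac_le_two_mul K hs) h1

theorem tsum_lfac {s : ℝ} (hs : 1 < s) : ∑' Q, lfac K s Q = Real.log (zetaR K s) := by
  have h := Real.rexp_tsum_eq_tprod (f := fac K s) (fac_pos K hs) (summable_lfac K hs)
  have h2 : ∏' Q, fac K s Q = zetaR K s := (hasProd_zetaR K hs).tprod_eq
  rw [h2] at h
  have h3 := congrArg Real.log h
  rwa [Real.log_exp] at h3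

/-- the `log`-Euler sum over a set of primes. -/
noncomputable def lsum (S : Set (HeightOneSpectrum (𝓞 K))) (s : ℝ) : ℝ :=
  ∑' Q, S.indicator (lfac K s) Q

theorem summable_indicator_lfac {s : ℝ} (hs : 1 < s) (S : Set (HeightOneSpectrum (𝓞 K))) :
    Summable (S.indicator (lfac K s)) :=
  (summable_lfac K hs).indicator S

theorem lsum_nonneg {s : ℝ} (hs : 1 < s) (S : Set (HeightOneSpectrum (𝓞 K))) :
    0 ≤ lsum K S s :=
  tsum_nonneg fun Q => Set.indicator_nonneg (fun Q _ => lfac_nonneg K hs Q) Q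

theorem lsum_univ {s : ℝ} (hs : 1 < s) : lsum K Set.univ s = Real.log (zetaR K s) := by
  unfold lsum
  rw [Set.indicator_univ, tsum_lfac K hs]

theorem lsum_add_compl {s : ℝ} (hs : 1 < s) (S : Set (HeightOneSpectrum (𝓞 K))) :
    lsum K S s + lsum K Sᶜ s = Real.log (zetaR K s) := by
  unfold lsum
  rw [← (summable_indicator_lfac K hs S).tsum_add (summable_indicator_lfac K hs Sᶜ),
    ← tsum_lfac K hs]
  refine tsum_congr fun Q => ?_
  rw [← Pi.add_apply, Set.indicator_self_add_compl]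

theorem lsum_mono {s : ℝ} (hs : 1 < s) {S T : Set (HeightOneSpectrum (𝓞 K))} (h : S ⊆ T) :
    lsum K S s ≤ lsum K T s := by
  unfold lsum
  refine (summable_indicator_lfac K hs S).tsum_le_tsum (fun Q => ?_)
    (summable_indicator_lfac K hs T)
  exact Set.indicator_le_indicator_of_subset h (fun Q => lfac_nonneg K hs Q) Q

theorem lsum_union_le {s : ℝ} (hs : 1 < s) (S T : Set (HeightOneSpectrum (𝓞 K))) :
    lsum K (S ∪ T) s ≤ lsum K S s + lsum K T s := by
  unfold lsum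
  rw [← (summable_indicator_lfac K hs S).tsum_add (summable_indicator_lfac K hs T)]
  refine (summable_indicator_lfac K hs _).tsum_le_tsum (fun Q => ?_)
    ((summable_indicator_lfac K hs S).add (summable_indicator_lfac K hs T))
  have h0 := lfac_nonneg K hs Q
  by_cases h1 : Q ∈ S <;> by_cases h2 : Q ∈ T <;>
    simp [Set.indicator, h1, h2, h0]

/-- the sum over a set of primes is bounded by any bound on the finite partial sums. -/
theorem lsum_le_of_finset {s : ℝ} (hs : 1 < s) (S : Set (HeightOneSpectrum (𝓞 K))) {C : ℝ}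
    (h : ∀ T : Finset (HeightOneSpectrum (𝓞 K)), (∀ Q ∈ T, Q ∈ S) → ∑ Q ∈ T, lfac K s Q ≤ C) :
    lsum K S s ≤ C := by
  classical
  unfold lsum
  refine (summable_indicator_lfac K hs S).tsum_le_of_sum_le fun T => ?_
  have h1 : ∑ Q ∈ T, S.indicator (lfac K s) Q = ∑ Q ∈ T.filter (· ∈ S), lfac K s Q := by
    rw [Finset.sum_filter]
    refine Finset.sum_congr rfl fun Q _ => ?_
    by_cases hQ : Q ∈ S <;> simp [Set.indicator, hQ]
  rw [h1]
  exact h _ fun Q hQ => (Finset.mem_filter.mp hQ).2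

/-- the primes of non-prime norm contribute a bounded amount. -/
theorem lsum_nonprime_le : ∃ C : ℝ, ∀ s : ℝ, 1 < s →
    lsum K {Q | ¬ (Ideal.absNorm Q.asIdeal).Prime} s ≤ C := by
  obtain ⟨C, hC⟩ := Fermat.Agent.S14.DegTwo.prod_nonprime_norm_le K
  refine ⟨Real.log C, fun s hs => ?_⟩
  refine lsum_le_of_finset K hs _ fun T hT => ?_
  have h1 := hC s hs.le T hT
  have hpos : 0 < ∏ Q ∈ T, fac K s Q := Finset.prod_pos fun Q _ => fac_pos K hs Q
  have h2 : ∑ Q ∈ T, lfac K s Q = Real.log (∏ Q ∈ T, fac K s Q) := by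
    unfold lfac
    rw [Real.log_prod]
    intro Q _
    exact (fac_pos K hs Q).ne'
  rw [h2]
  exact Real.log_le_log hpos h1

theorem finite_absNorm_mem (bad : Finset ℕ) :
    {Q : HeightOneSpectrum (𝓞 K) | Ideal.absNorm Q.asIdeal ∈ bad}.Finite := by
  classical
  have h : {Q : HeightOneSpectrum (𝓞 K) | Ideal.absNorm Q.asIdeal ∈ bad} ⊆
      ⋃ n ∈ bad, {Q : HeightOneSpectrum (𝓞 K) | ((n : ℕ) : 𝓞 K) ∈ Q.asIdeal ∧
        Ideal.absNorm Q.asIdeal = n} := by
    intro Q hQ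
    simp only [Set.mem_iUnion, Set.mem_ofPred_eq, exists_prop]
    exact ⟨_, hQ, Ideal.absNorm_mem Q.asIdeal, rfl⟩
  refine Set.Finite.subset ?_ h
  refine Set.Finite.biUnion bad.finite_toSet fun n hn => ?_
  by_cases hn0 : n = 0
  · subst hn0
    refine Set.Finite.subset Set.finite_empty fun Q hQ => ?_
    exfalso
    have h0 : Ideal.absNorm Q.asIdeal = 0 := hQ.2
    rw [Ideal.absNorm_eq_zero_iff] at h0
    exact Q.ne_bot h0
  · refine (finite_primes_mem K (x := ((n : ℕ) : 𝓞 K)) ?_).subset fun Q hQ => hQ.1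
    exact_mod_cast hn0

/-- the primes of norm in `bad` contribute a bounded amount. -/
theorem lsum_bad_le (bad : Finset ℕ) : ∃ C : ℝ, ∀ s : ℝ, 1 < s →
    lsum K {Q | Ideal.absNorm Q.asIdeal ∈ bad} s ≤ C := by
  classical
  have hfin := finite_absNorm_mem K bad
  refine ⟨hfin.toFinset.card * Real.log 2, fun s hs => ?_⟩
  refine lsum_le_of_finset K hs _ fun T hT => ?_
  have hsub : T ⊆ hfin.toFinset := fun Q hQ => hfin.mem_toFinset.mpr (hT Q hQ)
  calc ∑ Q ∈ T, lfac K s Q ≤ ∑ Q ∈ hfin.toFinset, lfac K s Q :=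
        Finset.sum_le_sum_of_subset_of_nonneg hsub fun Q _ _ => lfac_nonneg K hs Q
    _ ≤ ∑ _Q ∈ hfin.toFinset, Real.log 2 :=
        Finset.sum_le_sum fun Q _ => lfac_le_log_two K hs Q
    _ = hfin.toFinset.card * Real.log 2 := by rw [Finset.sum_const, nsmul_eq_mul]

/-- `Λ_K(s)`: the `log`-Euler sum over the primes of prime norm outside `bad`. -/
noncomputable def Lam (bad : Finset ℕ) (s : ℝ) : ℝ := lsum K (P1 K bad) s

theorem compl_P1 (bad : Finset ℕ) :
    (P1 K bad)ᶜ = {Q | ¬ (Ideal.absNorm Q.asIdeal).Prime} ∪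
      {Q | Ideal.absNorm Q.asIdeal ∈ bad} := by
  ext Q
  simp only [P1, Set.mem_compl_iff, Set.mem_ofPred_eq, Set.mem_union, not_and_or, not_not]

/-- `log ζ_K(s) + log (s - 1)` is bounded near `1`. -/
theorem log_zetaR_bound : ∃ B : ℝ, ∀ᶠ s in 𝓝[>] (1:ℝ),
    |Real.log (zetaR K s) + Real.log (s - 1)| ≤ B := by
  have hres := dedekindZeta_residue_pos K
  have h1 : Tendsto (fun s : ℝ => Real.log ((s - 1) * zetaR K s)) (𝓝[>] 1)
      (𝓝 (Real.log (dedekindZeta_residue K))) :=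
    (tendsto_sub_one_mul_zetaR K).log hres.ne'
  refine ⟨|Real.log (dedekindZeta_residue K)| + 1, ?_⟩
  have h2 : ∀ᶠ s in 𝓝[>] (1:ℝ), |Real.log ((s - 1) * zetaR K s)| <
      |Real.log (dedekindZeta_residue K)| + 1 :=
    (h1.abs).eventually_lt_const (by linarith)
  have hmem : Set.Ioi (1:ℝ) ∈ 𝓝[>] (1:ℝ) := self_mem_nhdsWithin
  filter_upwards [h2, hmem] with s hs hs1
  have hs1' : (1:ℝ) < s := hs1
  have hpos : 0 < s - 1 := sub_pos.mpr hs1'
  have hz := zetaR_pos K hs1'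
  rw [Real.log_mul hpos.ne' hz.ne'] at hs
  rw [add_comm]
  exact hs.le

/-- **(K1)** `Λ_K(s) = - log (s - 1) + O(1)` as `s → 1+`. -/
theorem Lam_bound (bad : Finset ℕ) : ∃ B : ℝ, ∀ᶠ s in 𝓝[>] (1:ℝ),
    |Lam K bad s + Real.log (s - 1)| ≤ B := by
  obtain ⟨B0, hB0⟩ := log_zetaR_bound K
  obtain ⟨C1, hC1⟩ := lsum_nonprime_le K
  obtain ⟨C2, hC2⟩ := lsum_bad_le K bad
  refine ⟨B0 + (C1 + C2), ?_⟩
  have hmem : Set.Ioi (1:ℝ) ∈ 𝓝[>] (1:ℝ) := self_mem_nhdsWithin
  filter_upwards [hB0, hmem] with s hs hs1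
  have hs1' : (1:ℝ) < s := hs1
  have hsplit := lsum_add_compl K hs1' (P1 K bad)
  have hc0 := lsum_nonneg K hs1' (P1 K bad)ᶜ
  have hc1 : lsum K (P1 K bad)ᶜ s ≤ C1 + C2 := by
    rw [compl_P1]
    exact (lsum_union_le K hs1' _ _).trans (add_le_add (hC1 s hs1') (hC2 s hs1'))
  have hL : Lam K bad s = Real.log (zetaR K s) - lsum K (P1 K bad)ᶜ s := by
    unfold Lam
    linarith
  rw [hL]
  rw [abs_le] at hs ⊢
  constructor <;> linarith [hs.1, hs.2]

end Fermat.Agent.S29.CycCheb.LogZeta
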