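import Mathlib

/-!
# Weak cyclic Chebotarev: the abstract sieve (K3a)

`G` a finite cyclic group, `φ : P → G` a map from a weighted set (`w s` summable for
`s > 1`).  If for every subgroup `H` the weight of `φ ⁻¹ H` is `(-log (s - 1) + O(1)) / [G : H]` as
`s → 1+`, then some `φ p` generates `G` (inclusion-exclusion over the maximal subgroups: the weight
of the generators is `∏_{r | n} (1 - 1/r) · (-log (s - 1)) + O(1) → ∞`).
-/

set_option autoImplicit false
set_option linter.unusedSectionVars false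
set_option linter.deprecated false

open Filter Topology

namespace Fermat.Agent.S29.CycCheb.Sieve

section group

variable {G : Type*} [CommGroup G] [Finite G]

/-- the subgroup of elements killed by `n / r`, `n = |G|` -/
noncomputable def T (G : Type*) [CommGroup G] (r : ℕ) : Subgroup G := (powMonoidHom (Nat.card G / r) : G →* G).ker

theorem mem_T {r : ℕ} {x : G} : x ∈ T G r ↔ x ^ (Nat.card G / r) = 1 := by
  unfold T
  rw [MonoidHom.mem_ker, powMonoidHom_apply]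

theorem mem_T_iff_orderOf {r : ℕ} {x : G} : x ∈ T G r ↔ orderOf x ∣ Nat.card G / r := by
  rw [mem_T, orderOf_dvd_iff_pow_eq_one]

/-- an element which lies in no `T r`, `r` a prime divisor of `|G|`, has order `|G|`. -/
theorem orderOf_eq_card_of_forall_notMem {x : G}
    (h : ∀ r ∈ (Nat.card G).primeFactors, x ∉ T G r) : orderOf x = Nat.card G := by
  have hn : 0 < Nat.card G := Nat.card_pos
  have hdvd : orderOf x ∣ Nat.card G := orderOf_dvd_natCard x
  obtain ⟨m, hm⟩ := hdvd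
  by_contra hne
  have hm1 : m ≠ 1 := by
    rintro rfl
    exact hne (by rw [hm, mul_one])
  obtain ⟨r, hr, hrm⟩ := Nat.exists_prime_and_dvd hm1
  have hrn : r ∣ Nat.card G := by rw [hm]; exact Dvd.dvd.mul_left hrm _
  have hmem : r ∈ (Nat.card G).primeFactors := Nat.mem_primeFactors.mpr ⟨hr, hrn, hn.ne'⟩
  apply h r hmem
  rw [mem_T_iff_orderOf]
  obtain ⟨m', rfl⟩ := hrm
  refine ⟨m', ?_⟩
  rw [hm, ← mul_assoc, mul_comm (orderOf x) r, mul_assoc, Nat.mul_div_cancel_left _ hr.pos]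

theorem mem_iInf_T_iff {I : Finset ℕ} (hI : I ⊆ (Nat.card G).primeFactors) {x : G} :
    (∀ r ∈ I, x ∈ T G r) ↔ x ∈ T G (∏ r ∈ I, r) := by
  have hn : 0 < Nat.card G := Nat.card_pos
  have hprime : ∀ r ∈ I, Nat.Prime r := fun r hr => Nat.prime_of_mem_primeFactors (hI hr)
  have hdvdn : ∀ r ∈ I, r ∣ Nat.card G := fun r hr => Nat.dvd_of_mem_primeFactors (hI hr)
  have hprod_dvd : ∏ r ∈ I, r ∣ Nat.card G :=
    Finset.prod_primes_dvd _ (fun r hr => (hprime r hr).prime) hdvdn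
  have hdvd : orderOf x ∣ Nat.card G := orderOf_dvd_natCard x
  have ho : 0 < orderOf x := orderOf_pos x
  obtain ⟨m, hm⟩ := hdvd
  have key : ∀ d : ℕ, d ∣ Nat.card G → (orderOf x ∣ Nat.card G / d ↔ d ∣ m) := by
    intro d hd
    rw [Nat.dvd_div_iff_mul_dvd hd, hm, mul_comm d, Nat.mul_dvd_mul_iff_left ho]
  simp_rw [mem_T_iff_orderOf]
  rw [key _ hprod_dvd]
  constructor
  · intro h
    refine Finset.prod_primes_dvd _ (fun r hr => (hprime r hr).prime) fun r hr => ?_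
    exact (key r (hdvdn r hr)).mp (h r hr)
  · intro h r hr
    rw [key r (hdvdn r hr)]
    exact (Finset.dvd_prod_of_mem _ hr).trans h

theorem index_T [IsCyclic G] {d : ℕ} (hd : d ∣ Nat.card G) : (T G d).index = d := by
  have hn : 0 < Nat.card G := Nat.card_pos
  unfold T
  rw [IsCyclic.index_powMonoidHom_ker]
  have hd0 : 0 < d := Nat.pos_of_dvd_of_pos hd hn
  have h1 : (Nat.card G).gcd (Nat.card G / d) = Nat.card G / d :=
    Nat.gcd_eq_right (Nat.div_dvd_of_dvd hd)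
  rw [h1]
  obtain ⟨m, hm⟩ := hd
  have hm0 : 0 < m := by
    rcases Nat.eq_zero_or_pos m with rfl | h
    · rw [mul_zero] at hm; omega
    · exact h
  rw [hm, Nat.mul_div_cancel_left _ hd0, Nat.mul_div_cancel _ hm0]

end group

section sieve

variable {G : Type*} [CommGroup G] [IsCyclic G] [Finite G] {P : Type*}

/-- the constant `∏ (1 - 1/r)` -/
theorem sum_powerset_eq_prod (R : Finset ℕ) :
    ∑ I ∈ R.powerset, (-1 : ℝ) ^ I.card / ((∏ r ∈ I, r : ℕ) : ℝ) =
      ∏ r ∈ R, (1 - 1 / (r : ℝ)) := by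
  have h := Finset.prod_add (fun r : ℕ => -(1 / (r : ℝ))) (fun _ => (1 : ℝ)) R
  have h' : ∏ r ∈ R, (1 - 1 / (r : ℝ)) = ∏ r ∈ R, (-(1 / (r : ℝ)) + 1) :=
    Finset.prod_congr rfl fun r _ => by ring
  rw [h', h]
  refine Finset.sum_congr rfl fun I _ => ?_
  rw [Finset.prod_const_one, mul_one, Finset.prod_neg, Nat.cast_prod, Finset.prod_div_distrib,
    Finset.prod_const_one, mul_one_div]

theorem prod_pos_of_primes {R : Finset ℕ} (hR : ∀ r ∈ R, Nat.Prime r) :
    0 < ∏ r ∈ R, (1 - 1 / (r : ℝ)) := by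
  refine Finset.prod_pos fun r hr => ?_
  have h2 : (2 : ℝ) ≤ r := by exact_mod_cast (hR r hr).two_le
  have : 1 / (r : ℝ) ≤ 1 / 2 := one_div_le_one_div_of_le (by norm_num) h2
  linarith

/-- **The sieve.** -/
theorem exists_generator (φ : P → G) (w : ℝ → P → ℝ) (S₀ : Set P)
    (hws : ∀ s : ℝ, 1 < s → Summable (w s))
    (hH : ∀ H : Subgroup G, ∃ B : ℝ, ∀ᶠ s in 𝓝[>] (1 : ℝ),
      |(H.index : ℝ) * ∑' p, Set.indicator {p | p ∈ S₀ ∧ φ p ∈ H} (w s) p +
        Real.log (s - 1)| ≤ B) :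
    ∃ p ∈ S₀, orderOf (φ p) = Nat.card G := by
  classical
  by_contra hno
  push Not at hno
  set n := Nat.card G with hn
  set R := n.primeFactors with hR
  have hRprime : ∀ r ∈ R, Nat.Prime r := fun r hr => Nat.prime_of_mem_primeFactors hr
  -- every `φ p`, `p ∈ S₀`, lies in some `T r`
  have hex : ∀ p ∈ S₀, ∃ r ∈ R, φ p ∈ T G r := by
    intro p hp
    by_contra h
    push Not at h
    exact hno p hp (orderOf_eq_card_of_forall_notMem h)
  -- the weight of `φ ⁻¹ (T d)`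
  set M : ℕ → ℝ → ℝ := fun d s => ∑' p, Set.indicator {p | p ∈ S₀ ∧ φ p ∈ T G d} (w s) p with hM
  -- inclusion-exclusion, pointwise
  have hpt : ∀ s p, ∑ I ∈ R.powerset, (-1 : ℝ) ^ I.card *
      Set.indicator {p | p ∈ S₀ ∧ φ p ∈ T G (∏ r ∈ I, r)} (w s) p = 0 := by
    intro s p
    by_cases hp : p ∈ S₀
    · have h1 : ∏ r ∈ R, (-(if φ p ∈ T G r then (1 : ℝ) else 0) + 1) = 0 := by
        obtain ⟨r, hr, hmem⟩ := hex p hp
        refine Finset.prod_eq_zero hr ?_
        rw [if_pos hmem]; ring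
      rw [Finset.prod_add] at h1
      have h2 : ∀ I ∈ R.powerset, (-1 : ℝ) ^ I.card *
          Set.indicator {p | p ∈ S₀ ∧ φ p ∈ T G (∏ r ∈ I, r)} (w s) p =
          ((∏ r ∈ I, -(if φ p ∈ T G r then (1 : ℝ) else 0)) * ∏ r ∈ R \ I, (1 : ℝ)) * w s p := by
        intro I hI
        rw [Finset.mem_powerset] at hI
        rw [Finset.prod_const_one, mul_one, Finset.prod_neg, Finset.prod_boole]
        by_cases hx : φ p ∈ T G (∏ r ∈ I, r)
        · rw [Set.indicator_of_mem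
              (show p ∈ {p | p ∈ S₀ ∧ φ p ∈ T G (∏ r ∈ I, r)} from ⟨hp, hx⟩),
            if_pos ((mem_iInf_T_iff (G := G) hI).mpr hx)]; ring
        · rw [Set.indicator_of_notMem
              (show p ∉ {p | p ∈ S₀ ∧ φ p ∈ T G (∏ r ∈ I, r)} from fun h => hx h.2),
            if_neg (fun h => hx ((mem_iInf_T_iff (G := G) hI).mp h))]; ring
      rw [Finset.sum_congr rfl h2, ← Finset.sum_mul, h1, zero_mul]
    · refine Finset.sum_eq_zero fun I _ => ?_
      rw [Set.indicator_of_notMem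
        (show p ∉ {p | p ∈ S₀ ∧ φ p ∈ T G (∏ r ∈ I, r)} from fun h => hp h.1), mul_zero]
  -- summed
  have hsum : ∀ s : ℝ, 1 < s → ∑ I ∈ R.powerset, (-1 : ℝ) ^ I.card * M (∏ r ∈ I, r) s = 0 := by
    intro s hs
    have hsm : ∀ I ∈ R.powerset, Summable fun p => (-1 : ℝ) ^ I.card *
        Set.indicator {p | p ∈ S₀ ∧ φ p ∈ T G (∏ r ∈ I, r)} (w s) p := fun I _ =>
      ((hws s hs).indicator _).mul_left _
    have h1 : ∑' p, ∑ I ∈ R.powerset, (-1 : ℝ) ^ I.card *
        Set.indicator {p | p ∈ S₀ ∧ φ p ∈ T G (∏ r ∈ I, r)} (w s) p = 0 := by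
      simp_rw [hpt s]
      exact tsum_zero
    rw [Summable.tsum_finsetSum hsm] at h1
    rw [← h1]
    refine Finset.sum_congr rfl fun I _ => ?_
    rw [tsum_mul_left]
  -- the bounds
  have hB : ∀ I ∈ R.powerset, ∃ B : ℝ, ∀ᶠ s in 𝓝[>] (1 : ℝ),
      |((∏ r ∈ I, r : ℕ) : ℝ) * M (∏ r ∈ I, r) s + Real.log (s - 1)| ≤ B := by
    intro I hI
    rw [Finset.mem_powerset] at hI
    have hdvd : ∏ r ∈ I, r ∣ Nat.card G :=
      Finset.prod_primes_dvd _ (fun r hr => (hRprime r (hI hr)).prime)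
        fun r hr => Nat.dvd_of_mem_primeFactors (hI hr)
    obtain ⟨B, hB⟩ := hH (T G (∏ r ∈ I, r))
    refine ⟨B, ?_⟩
    rw [index_T hdvd] at hB
    exact hB
  choose! Bf hBf using hB
  have hall : ∀ᶠ s in 𝓝[>] (1 : ℝ), ∀ I ∈ R.powerset,
      |((∏ r ∈ I, r : ℕ) : ℝ) * M (∏ r ∈ I, r) s + Real.log (s - 1)| ≤ Bf I :=
    (Filter.eventually_all_finset _).mpr hBf
  set c : ℝ := ∏ r ∈ R, (1 - 1 / (r : ℝ)) with hc
  have hcpos : 0 < c := prod_pos_of_primes hRprime
  set Btot : ℝ := ∑ I ∈ R.powerset, |Bf I| with hBtot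
  -- `c * log (s - 1)` is bounded near `1`
  have hbd : ∀ᶠ s in 𝓝[>] (1 : ℝ), -Btot ≤ c * Real.log (s - 1) := by
    filter_upwards [hall, self_mem_nhdsWithin] with s hs1 hs
    have hs' : (1 : ℝ) < s := hs
    have hdpos : ∀ I ∈ R.powerset, (0 : ℝ) < ((∏ r ∈ I, r : ℕ) : ℝ) := by
      intro I hI
      rw [Finset.mem_powerset] at hI
      have : 0 < ∏ r ∈ I, r := Finset.prod_pos fun r hr => (hRprime r (hI hr)).pos
      exact_mod_cast this
    have e1 : c * Real.log (s - 1) = ∑ I ∈ R.powerset, (-1 : ℝ) ^ I.card /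
        ((∏ r ∈ I, r : ℕ) : ℝ) * (((∏ r ∈ I, r : ℕ) : ℝ) * M (∏ r ∈ I, r) s +
          Real.log (s - 1)) := by
      have h0 := hsum s hs'
      have h1 : ∀ I ∈ R.powerset, (-1 : ℝ) ^ I.card / ((∏ r ∈ I, r : ℕ) : ℝ) *
          (((∏ r ∈ I, r : ℕ) : ℝ) * M (∏ r ∈ I, r) s + Real.log (s - 1)) =
          (-1 : ℝ) ^ I.card * M (∏ r ∈ I, r) s +
            (-1 : ℝ) ^ I.card / ((∏ r ∈ I, r : ℕ) : ℝ) * Real.log (s - 1) := by
        intro I hI
        have := (hdpos I hI).ne'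
        field_simp
      rw [Finset.sum_congr rfl h1, Finset.sum_add_distrib, h0, zero_add, ← Finset.sum_mul,
        sum_powerset_eq_prod]
    rw [e1]
    have h2 : ∀ I ∈ R.powerset, -|Bf I| ≤ (-1 : ℝ) ^ I.card / ((∏ r ∈ I, r : ℕ) : ℝ) *
        (((∏ r ∈ I, r : ℕ) : ℝ) * M (∏ r ∈ I, r) s + Real.log (s - 1)) := by
      intro I hI
      have hb := hs1 I hI
      have hd1 : (1 : ℝ) ≤ ((∏ r ∈ I, r : ℕ) : ℝ) := by
        have := hdpos I hI
        exact_mod_cast (Nat.one_le_cast.mpr (by exact_mod_cast this))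
      have habs : |(-1 : ℝ) ^ I.card / ((∏ r ∈ I, r : ℕ) : ℝ)| ≤ 1 := by
        rw [abs_div, abs_pow, abs_neg, abs_one, one_pow, abs_of_pos (hdpos I hI)]
        rw [div_le_one (hdpos I hI)]
        exact hd1
      have h3 : |(-1 : ℝ) ^ I.card / ((∏ r ∈ I, r : ℕ) : ℝ) *
          (((∏ r ∈ I, r : ℕ) : ℝ) * M (∏ r ∈ I, r) s + Real.log (s - 1))| ≤ |Bf I| := by
        rw [abs_mul]
        calc _ ≤ 1 * Bf I := mul_le_mul habs hb (abs_nonneg _) zero_le_one
          _ = Bf I := one_mul _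
          _ ≤ |Bf I| := le_abs_self _
      exact (abs_le.mp h3).1
    calc -Btot = ∑ I ∈ R.powerset, -|Bf I| := by rw [hBtot, Finset.sum_neg_distrib]
      _ ≤ _ := Finset.sum_le_sum h2
  -- contradiction with `log (s - 1) → -∞`
  have htend : Tendsto (fun s : ℝ => Real.log (s - 1)) (𝓝[>] (1 : ℝ)) atBot := by
    have h1 : Tendsto (fun s : ℝ => s - 1) (𝓝[>] (1 : ℝ)) (𝓝[>] (0 : ℝ)) := by
      refine tendsto_nhdsWithin_of_tendsto_nhds_of_eventually_within _ ?_ ?_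
      · have : Tendsto (fun s : ℝ => s - 1) (𝓝 (1 : ℝ)) (𝓝 (1 - 1)) :=
          (continuous_id.sub continuous_const).tendsto 1
        rw [sub_self] at this
        exact this.mono_left nhdsWithin_le_nhds
      · filter_upwards [self_mem_nhdsWithin] with s hs
        exact sub_pos.mpr (show (1 : ℝ) < s from hs)
    exact Real.tendsto_log_nhdsGT_zero.comp h1
  have hlt : ∀ᶠ s in 𝓝[>] (1 : ℝ), Real.log (s - 1) < -Btot / c - 1 :=
    htend.eventually (eventually_lt_atBot _)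
  have : (𝓝[>] (1 : ℝ)).NeBot := inferInstance
  obtain ⟨s, h1, h2⟩ := (hbd.and hlt).exists
  have h3 : c * Real.log (s - 1) < c * (-Btot / c - 1) := mul_lt_mul_of_pos_left h2 hcpos
  have h4 : c * (-Btot / c - 1) = -Btot - c := by field_simp
  linarith

end sieve

end Fermat.Agent.S29.CycCheb.Sieve
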