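import Fermat.Agent.S29.CycCheb.Defs
import Fermat.Agent.S29.CycCheb.FibreSum
import Fermat.Agent.S29.CycCheb.Sieve

/-!
# Weak cyclic Chebotarev, relative form (K3c), hypothesis-style

`L/K` a cyclic extension of number fields.  Given the algebraic fibre count (`CountHyp`, proved in
`FibreBelow`/`FibreCount`), there is a prime `𝔭` of `K` of prime norm outside `bad` and a prime `𝔔`
of `L` over it whose Frobenius generates `Gal(L/K)`.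
-/

set_option autoImplicit false

open NumberField IsDedekindDomain nonZeroDivisors Filter Topology
open Fermat.Agent.S29.CycCheb.LogZeta Fermat.Agent.S29.CycCheb.FibreSum

namespace Fermat.Agent.S29.CycCheb.Relative

variable (K L : Type*) [Field K] [NumberField K] [Field L] [NumberField L] [Algebra K L]
  [IsGalois K L]

/-- The algebraic input: primes below, existence of Frobenius elements, and the fibre count. -/
structure CountHyp (bad : Finset ℕ) : Prop where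
  below_mem : ∀ (H : Subgroup (L ≃ₐ[K] L))
    (𝔓 : HeightOneSpectrum (𝓞 (IntermediateField.fixedField H))),
    𝔓 ∈ P1 (IntermediateField.fixedField H) bad →
      below K (IntermediateField.fixedField H) 𝔓 ∈ P1 K bad ∧
      Ideal.absNorm (below K (IntermediateField.fixedField H) 𝔓).asIdeal =
        Ideal.absNorm 𝔓.asIdeal
  exists_frob : ∀ 𝔭 : HeightOneSpectrum (𝓞 K), 𝔭 ∈ P1 K bad →
    ∃ (𝔔 : Ideal (𝓞 L)) (_ : 𝔔.IsPrime) (σ : L ≃ₐ[K] L), 𝔔.under (𝓞 K) = 𝔭.asIdeal ∧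
      IsFrob σ 𝔔 (Ideal.absNorm 𝔭.asIdeal)
  ncard_fiber : ∀ (H : Subgroup (L ≃ₐ[K] L)) (𝔭 : HeightOneSpectrum (𝓞 K)), 𝔭 ∈ P1 K bad →
    ∀ (𝔔 : Ideal (𝓞 L)), 𝔔.IsPrime → 𝔔.under (𝓞 K) = 𝔭.asIdeal →
    ∀ σ : L ≃ₐ[K] L, IsFrob σ 𝔔 (Ideal.absNorm 𝔭.asIdeal) → σ ∈ H →
      (fiber K (IntermediateField.fixedField H) bad 𝔭).ncard = H.index
  fiber_empty : ∀ (H : Subgroup (L ≃ₐ[K] L)) (𝔭 : HeightOneSpectrum (𝓞 K)), 𝔭 ∈ P1 K bad →
    ∀ (𝔔 : Ideal (𝓞 L)), 𝔔.IsPrime → 𝔔.under (𝓞 K) = 𝔭.asIdeal →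
    ∀ σ : L ≃ₐ[K] L, IsFrob σ 𝔔 (Ideal.absNorm 𝔭.asIdeal) → σ ∉ H →
      fiber K (IntermediateField.fixedField H) bad 𝔭 = ∅

variable {K L}

/-- **Relative weak cyclic Chebotarev**, from the fibre count. -/
theorem exists_prime_frob_generates_of [IsCyclic (L ≃ₐ[K] L)] {bad : Finset ℕ}
    (hC : CountHyp K L bad) :
    ∃ (𝔭 : HeightOneSpectrum (𝓞 K)) (𝔔 : Ideal (𝓞 L)) (_ : 𝔔.IsPrime) (σ : L ≃ₐ[K] L),
      𝔭 ∈ P1 K bad ∧ 𝔔.under (𝓞 K) = 𝔭.asIdeal ∧ IsFrob σ 𝔔 (Ideal.absNorm 𝔭.asIdeal) ∧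
      orderOf σ = Nat.card (L ≃ₐ[K] L) := by
  classical
  letI : CommGroup (L ≃ₐ[K] L) := IsCyclic.commGroup
  -- choose Frobenius data at every good prime
  choose! Qf hQf σf hσf using hC.exists_frob
  have hQprime : ∀ 𝔭 ∈ P1 K bad, (Qf 𝔭).IsPrime := hQf
  have hunder : ∀ 𝔭 ∈ P1 K bad, (Qf 𝔭).under (𝓞 K) = 𝔭.asIdeal := fun 𝔭 h => (hσf 𝔭 h).1
  have hfrob : ∀ 𝔭 ∈ P1 K bad, IsFrob (σf 𝔭) (Qf 𝔭) (Ideal.absNorm 𝔭.asIdeal) :=
    fun 𝔭 h => (hσf 𝔭 h).2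
  have key := Sieve.exists_generator (G := L ≃ₐ[K] L) (P := HeightOneSpectrum (𝓞 K))
    σf (fun s => lfac K s) (P1 K bad) (fun s hs => summable_lfac K hs) ?_
  · obtain ⟨𝔭, h𝔭, hord⟩ := key
    exact ⟨𝔭, Qf 𝔭, hQprime 𝔭 h𝔭, σf 𝔭, h𝔭, hunder 𝔭 h𝔭, hfrob 𝔭 h𝔭, hord⟩
  intro H
  obtain ⟨B, hB⟩ := Lam_bound (IntermediateField.fixedField H) bad
  refine ⟨B, ?_⟩
  filter_upwards [hB, self_mem_nhdsWithin] with s hs hs1
  have hs1' : (1 : ℝ) < s := hs1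
  have hfib : lsum (IntermediateField.fixedField H) (P1 (IntermediateField.fixedField H) bad) s =
      (H.index : ℝ) * lsum K {𝔭 | 𝔭 ∈ P1 K bad ∧ σf 𝔭 ∈ H} s := by
    refine lsum_fibre K (IntermediateField.fixedField H) hs1'
      (below K (IntermediateField.fixedField H)) _ _ H.index ?_ ?_
    · intro 𝔓 h𝔓
      obtain ⟨hmem, hnorm⟩ := hC.below_mem H 𝔓 h𝔓
      refine ⟨⟨hmem, ?_⟩, hnorm.symm⟩
      by_contra hnot
      have hempty := hC.fiber_empty H _ hmem (Qf _) (hQprime _ hmem) (hunder _ hmem) (σf _)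
        (hfrob _ hmem) hnot
      have : 𝔓 ∈ fiber K (IntermediateField.fixedField H) bad
          (below K (IntermediateField.fixedField H) 𝔓) := ⟨h𝔓, rfl⟩
      rw [hempty] at this
      exact this
    · rintro 𝔭 ⟨h𝔭, hσ⟩
      exact hC.ncard_fiber H 𝔭 h𝔭 (Qf 𝔭) (hQprime 𝔭 h𝔭) (hunder 𝔭 h𝔭) (σf 𝔭) (hfrob 𝔭 h𝔭) hσ
  have hLam : Lam (IntermediateField.fixedField H) bad s =
      (H.index : ℝ) * ∑' 𝔭, Set.indicator {𝔭 | 𝔭 ∈ P1 K bad ∧ σf 𝔭 ∈ H} (lfac K s) 𝔭 := hfib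
  rw [← hLam]
  exact hs

end Fermat.Agent.S29.CycCheb.Relative
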